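import Fermat.Agent.CarayolSquare.Ordinary.ResidueDVR

/-!
# Gluing at ordinary points

**Gluing at ordinary points**: an ordinary point of the open chart lies on a single component and is
a regular point (`singleAt_ordinary`), so `glueOrdinary` holds.
-/

set_option autoImplicit false

noncomputable section

open ModularCurve Polynomial

namespace FLTAgent.CarayolSquare

attribute [local instance high] RingHom.instRingHomClass RingHomClass.toAddMonoidHomClass
  AddMonoidHomClass.toAddHomClass AlgHomClass.toRingHomClass RingHomClass.toMonoidHomClass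
  MonoidHomClass.toMulHomClass

local notation "Qbar" => AlgebraicClosure ℚ

variable {q : ℕ}

namespace Ctx

variable (X : Ctx q) [NeZero q] [Fact q.Prime]

omit [Fact (Nat.Prime q)] in
theorem exists_geom_zeta (n : ℤ) :
    ∃ a : X.A, (a : Qbar) * (1 - X.ζ) = 1 - X.ζ ^ n ∧ IsLocalRing.residue X.A a = (n : X.k) := by
  set z : X.A := ⟨X.ζ, X.ζ_mem_A⟩ with hz
  have h1 : IsLocalRing.residue X.A z = 1 := by
    rw [← map_one (IsLocalRing.residue X.A), ← sub_eq_zero, ← map_sub,
      IsLocalRing.residue_eq_zero_iff, X.A.valuation_lt_one_iff]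
    exact X.valuation_zeta_sub_one
  have hq : X.ζ ^ (q - 1) * X.ζ = 1 := by
    rw [← pow_succ, Nat.sub_add_cancel X.prime.one_le, X.hζ.pow_eq_one]
  induction n with
  | zero => exact ⟨0, by simp, by simp⟩
  | succ n ih =>
    obtain ⟨a, ha, hr⟩ := ih
    refine ⟨1 + z * a, ?_, by rw [map_add, map_mul, map_one, h1, hr]; push_cast; ring⟩
    push_cast
    rw [zpow_add_one₀ X.ζ_ne_zero, hz]
    linear_combination X.ζ * ha
  | pred n ih =>
    obtain ⟨a, ha, hr⟩ := ih
    refine ⟨z ^ (q - 1) * (a - 1), ?_, by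
      rw [map_mul, map_pow, map_sub, map_one, h1, hr]; push_cast; ring⟩
    push_cast
    rw [hz, zpow_sub_one₀ X.ζ_ne_zero]
    have h2 : X.ζ⁻¹ = X.ζ ^ (q - 1) := inv_eq_of_mul_eq_one_left hq
    rw [h2]
    linear_combination X.ζ ^ (q - 1) * ha + hq

omit [Fact (Nat.Prime q)] in
theorem exists_unit_zeta : ∃ c : X.A, (c : Qbar) * (q : Qbar) = (1 - X.ζ) ^ (q - 1) ∧
    IsLocalRing.residue X.A c ≠ 0 := by
  have h := X.valuation_q_eq rfl X.hζ
  rw [X.hζ.card_primitiveRoots, Nat.totient_prime X.prime, ← map_pow] at h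
  have h1 : X.A.valuation ((1 - X.ζ) ^ (q - 1) / (q : Qbar)) = 1 := by
    rw [map_div₀, ← h, div_self X.v_q_pos.ne']
  refine ⟨⟨_, (X.A.valuation_le_one_iff _).mp h1.le⟩, div_mul_cancel₀ _ X.q_ne_zero, ?_⟩
  rw [Ne, IsLocalRing.residue_eq_zero_iff, X.A.valuation_lt_one_iff]
  exact h1.not_lt

end Ctx

variable [NeZero q] [Fact q.Prime]

namespace Model

variable {X : Ctx q} {M₁ : ℕ} [NeZero M₁] (G : Model X M₁)

/-- The difference of the two translates of `h`. -/
def diffH : G.openChart :=
  ⟨G.pullHom true G.h - G.pullHom false G.h,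
    sub_mem (G.pullHom_mem_openChart _ _) (G.pullHom_mem_openChart _ _)⟩

theorem red_diffH : G.red none (G.diffH : G.splitField) = 0 := by
  show G.red none (G.pullHom true G.h - G.pullHom false G.h) = 0
  rw [G.red_sub (G.openChart_le_V _ (G.pullHom_mem_openChart _ _))
    (G.openChart_le_V _ (G.pullHom_mem_openChart _ _)), G.red_pullHom (by simp),
    G.red_pullHom (by simp), sub_self]

/-- Its `(q - 1)`-st power over `q` has residue a constant times `(θ h) ^ (q - 1)`. -/
theorem red_diffH_pow : ∃ γ : X.O, X.resK γ ≠ 0 ∧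
    (G.diffH : G.splitField) ^ (q - 1) / (q : G.splitField) ∈ G.V none ∧
      G.red none ((G.diffH : G.splitField) ^ (q - 1) / (q : G.splitField)) =
        HahnSeries.C (X.resK γ) * G.thbar ^ (q - 1) := by
  obtain ⟨c, hc, hc0⟩ := X.exists_unit_zeta
  obtain ⟨γ, hγ⟩ := X.resK_surjective (IsLocalRing.residue X.A c)
  refine ⟨γ, by rw [hγ]; exact hc0, ?_⟩
  choose a ha har using X.exists_geom_zeta
  have hone : (1 - X.ζ : Qbar) ≠ 0 := sub_ne_zero.mpr fun h =>
    X.hζ.ne_one X.prime.one_lt h.symm
  set E := G.emb G.one (kindPair none) (G.diffH : G.splitField) with hE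
  have hco : ∀ n, E.coeff n = (a n : Qbar) * (1 - X.ζ) * (G.h : Ser).coeff n := by
    intro n
    have h1 : ((1 : ZMod q)).val = 1 := by
      have : Fact (1 < q) := ⟨X.prime.one_lt⟩
      exact ZMod.val_one q
    have e : E = X.sub (some 0) (G.h : Ser) - X.sub (some 1) (G.h : Ser) := by
      show G.emb G.one _ (G.gen true (.pull G.h) - G.gen false (.pull G.h)) = _
      rw [map_sub, G.emb_gen, G.emb_gen, G.sub_h, G.sub_h]
      rfl
    rw [e, X.sub_zero_eq, HahnSeries.coeff_sub, ha n]
    show _ - (Igusa.scale (X.zetaU 1) _).coeff n = _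
    rw [Igusa.coeff_scale, Units.val_zpow_eq_zpow_val]
    show _ - (X.ζ ^ ((1 : ZMod q)).val) ^ n * _ = _
    rw [h1, pow_one]
    ring
  set T : Ser := (HahnSeries.C (1 - X.ζ)⁻¹ : Ser) * E with hT
  have hTc : ∀ n, T.coeff n = (a n : Qbar) * (G.h : Ser).coeff n := fun n => by
    rw [hT, HahnSeries.C_mul_eq_smul, HahnSeries.coeff_smul, smul_eq_mul, hco]
    field_simp
  have hTI : T ∈ X.intSer := fun n => by
    rw [hTc]; exact X.A.mul_mem _ _ (a n).2 (G.coe_mem_intSer G.h n)
  have hTred : X.redS ⟨T, hTI⟩ = G.thbar := by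
    ext n
    rw [Ctx.coeff_redS, thbar, ThetaOp.thetaL_coeff, hbar, redC_apply, Ctx.coeff_redS, ← har n,
      ← map_mul]
    exact congrArg _ (Subtype.ext (hTc n))
  have hCI : (HahnSeries.C (c : Qbar) : Ser) ∈ X.intSer := fun n => by
    rw [HahnSeries.C_apply, HahnSeries.coeff_single]
    split
    · exact c.2
    · exact X.A.zero_mem
  obtain ⟨S, hS⟩ : ∃ S : X.intSer, S = ⟨_, hCI⟩ * ⟨T, hTI⟩ ^ (q - 1) := ⟨_, rfl⟩
  have hemb : G.emb G.one (kindPair none)
      ((G.diffH : G.splitField) ^ (q - 1) / (q : G.splitField)) =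
      (S : Ser) := by
    rw [hS]
    have hq0 : (q : Qbar) ≠ 0 := X.q_ne_zero
    have e1 : (HahnSeries.C (c : Qbar) : Ser) * (HahnSeries.C (1 - X.ζ)⁻¹ : Ser) ^ (q - 1) =
        ((q : Ser))⁻¹ := by
      rw [← map_natCast (HahnSeries.C : Qbar →+* Ser), ← map_pow, ← map_mul, ← map_inv₀]
      congr 1
      have hc0' : (c : Qbar) ≠ 0 := fun h0 => hc0 (by
        rw [show c = 0 from Subtype.ext h0, map_zero])
      rw [inv_pow, ← hc]
      field_simp
    push_cast
    rw [map_div₀, map_pow (G.emb G.one (kindPair none)), map_natCast, ← hE, hT, mul_pow,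
        ← mul_assoc,
      e1, div_eq_mul_inv, mul_comm]
  obtain ⟨hV, hr⟩ := G.red_of_emb (κ := none)
    (z := (G.diffH : G.splitField) ^ (q - 1) / (q : G.splitField))
    ⟨(S : Ser), X.intSer_le_gaussRing S.2⟩ hemb
  refine ⟨hV, ?_⟩
  rw [hr, X.gaussRes_of_intSer, hS, map_mul, map_pow, hTred]
  congr 1
  rw [hγ]
  ext n
  rw [Ctx.coeff_redS]
  conv_rhs => rw [HahnSeries.C_apply, HahnSeries.coeff_single]
  have hcn : (HahnSeries.C (c : Qbar) : Ser).coeff n = if n = 0 then (c : Qbar) else 0 := by
    rw [HahnSeries.C_apply, HahnSeries.coeff_single]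
    split_ifs <;> rfl
  split_ifs with h
  · subst h
    rw [if_pos rfl] at hcn
    exact congrArg (IsLocalRing.residue X.A) (Subtype.ext hcn)
  · rw [if_neg h] at hcn
    exact (congrArg (IsLocalRing.residue X.A) (Subtype.ext hcn : _ = (0 : X.A))).trans (map_zero _)

theorem diffH_ne_zero : (G.diffH : G.splitField) ≠ 0 := by
  obtain ⟨γ, hγ, -, hr⟩ := G.red_diffH_pow
  intro h
  rw [h, zero_pow (by have := X.prime.two_le; omega), zero_div, G.red_zero] at hr
  exact mul_ne_zero ((_root_.map_ne_zero HahnSeries.C).mpr hγ) (pow_ne_zero _ G.thbar_ne_zero)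
    hr.symm

/-- The open chart is noetherian. -/
theorem isNoetherianRing_openChart : IsNoetherianRing G.openChart := by
  classical
  have := X.dvr
  set u := G.baseHom G.h with hu
  let A := Algebra.adjoin X.O ({u} : Set G.splitField)
  have : IsNoetherianRing A := isNoetherianRing_of_fg ⟨{u}, by simp [A]⟩
  let Ω := AlgebraicClosure G.splitField
  obtain ⟨N, hN, hsub⟩ := (G.chartFinite G.coordH G.h rfl Ω).fg
  let : Module A N := N.module
  let Cu : Submodule A G.splitField :=
    { carrier := {z | z ∈ G.uChart u}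
      add_mem' := fun ha hb => (G.uChart u).add_mem ha hb
      zero_mem' := (G.uChart u).zero_mem
      smul_mem' := fun a z hz =>
          mul_mem (mem_intSet_of_mem_adjoin a.2 : (a : G.splitField) ∈ G.uChart u) hz }
  have : IsNoetherian A N := isNoetherian_of_fg_of_noetherian N hN
  have hCN : Cu ≤ N := fun z hz => hsub z ((G.chartF_eq_uChart u).symm ▸ hz)
  obtain ⟨B, hB⟩ := isNoetherian_submodule.mp (inferInstance : IsNoetherian A N) Cu hCN
  let S : Subalgebra X.O G.splitField :=
    { G.openChart.toSubsemiring with algebraMap_mem' := G.algebraMap_mem_openChart }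
  have hsle : G.uChart u ≤ G.openChart := intSet_mono (Set.singleton_subset_iff.mpr
    (Set.mem_insert _ _))
  have hS : S = Algebra.adjoin X.O
      ((({u, G.baseHom G.Dinv} : Finset G.splitField) ∪ B : Finset G.splitField) : Set
          G.splitField) := by
    refine le_antisymm (fun z (hz : z ∈ G.openChart) => ?_) (Algebra.adjoin_le fun z hz => ?_)
    · set T := Algebra.adjoin X.O
        ((({u, G.baseHom G.Dinv} : Finset G.splitField) ∪ B : Finset G.splitField) : Set
            G.splitField)
      have hA : A ≤ T := Algebra.adjoin_mono (by simp)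
      obtain ⟨n, hn⟩ := G.clear_openChart G.coordH G.h rfl hz
      have h1 : aeval u G.coordH.E ^ n * z ∈ Submodule.span A (B : Set G.splitField) :=
        hB.symm ▸ (hn : _ ∈ Cu)
      have h2 : aeval u G.coordH.E ^ n * z ∈ T := by
        clear hn
        revert h1
        generalize aeval u G.coordH.E ^ n * z = x
        intro h1
        induction h1 using Submodule.span_induction with
        | mem y hy => exact Algebra.subset_adjoin (by simp [hy])
        | zero => exact zero_mem _
        | add x y _ _ hx hy => exact add_mem hx hy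
        | smul r y _ hy => exact mul_mem (hA r.2) hy
      have hD : G.baseHom G.Dinv * aeval u G.coordH.E = 1 := by
        have h := congrArg G.baseHom G.Dinv_mul
        rw [map_mul, map_prod, map_one] at h
        simpa [coordH, map_prod, hu] using h
      have e : z = G.baseHom G.Dinv ^ n * (aeval u G.coordH.E ^ n * z) := by
        rw [← mul_assoc, ← mul_pow, hD, one_pow, one_mul]
      rw [e]
      exact mul_mem (pow_mem (Algebra.subset_adjoin (by simp)) n) h2
    · simp only [Finset.coe_union, Finset.coe_insert, Finset.coe_singleton, Set.mem_union,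
        Set.mem_insert_iff, Set.mem_singleton_iff, Finset.mem_coe] at hz
      rcases hz with (rfl | rfl) | hz
      · exact G.baseHom_h_mem_openChart
      · exact G.baseHom_Dinv_mem_openChart
      · exact hsle (hB ▸ Submodule.subset_span hz : z ∈ Cu)
  have : IsNoetherianRing S := isNoetherianRing_of_fg (hS ▸ ⟨_, rfl⟩)
  exact isNoetherianRing_of_ringEquiv S
    { Equiv.refl S with map_mul' := fun _ _ => rfl, map_add' := fun _ _ => rfl }

theorem exists_frac_openChart (z : G.splitField) :
    ∃ a s : G.openChart, (s : G.splitField) ≠ 0 ∧ z * s = a := by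
  obtain ⟨d, hd, hdc, hdz⟩ :=
    (G.chartFinite G.coordH G.h rfl (AlgebraicClosure G.splitField)).den z
  have hle : ∀ y ∈ chartF X.O (AlgebraicClosure G.splitField)
      ({G.baseHom G.h} : Set G.splitField), y ∈ G.openChart := fun y hy =>
    intSet_mono (Set.singleton_subset_iff.mpr (Set.mem_insert _ _))
      (G.chartF_eq_uChart _ ▸ hy : y ∈ G.uChart (G.baseHom G.h))
  exact ⟨⟨_, hle _ hdz⟩, ⟨d, hle _ hdc⟩, hd, mul_comm z d⟩

variable {G}

/-- The function `((x E) ^ (q - 1)) / q` does not vanish at a point on the middle component. -/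
theorem Point.exists_middle_unit (P : G.Point G.openChart) (hκ : P.φ (G.sepO none) ≠ 0) :
    ∃ w : G.openChart, P.φ w ≠ 0 ∧
      (w : G.splitField) = (G.diffH : G.splitField) ^ (q - 1) * G.sepFun none ^ (q - 1) /
        (q : G.splitField) := by
  have hxV : ∀ κ, (G.diffH : G.splitField) ∈ G.V κ := fun κ => G.openChart_le_V κ G.diffH.2
  have hEV : ∀ κ, G.sepFun none ∈ G.V κ := fun κ => G.openChart_le_V κ (G.sepFun_mem_openChart _)
  obtain ⟨γ, hγ, hxq, hxr⟩ := G.red_diffH_pow
  have hV : ∀ κ, (G.diffH : G.splitField) ^ (q - 1) * G.sepFun none ^ (q - 1) /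
      (q : G.splitField) ∈ G.V κ := by
    intro κ
    cases κ with
    | none => rw [mul_div_right_comm]; exact mul_mem hxq (pow_mem (hEV _) _)
    | some c =>
      rw [mul_div_assoc]
      exact mul_mem (pow_mem (hxV _) _) (G.pow_div_q_mem_V (ramExp_le _) (hEV _)
        (by rw [G.red_sepFun, if_neg (by simp)]))
  have hw := G.div_q_mem_openChart (mul_mem (pow_mem G.diffH.2 (q - 1))
    (pow_mem (G.sepFun_mem_openChart none) (q - 1))) hV
  refine ⟨⟨_, hw⟩, fun h0 => ?_, rfl⟩
  obtain ⟨R, R', -, -, hRR, hθ⟩ := G.thbar_spec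
  let pullO : G.C →+* G.openChart :=
    (G.pullHom true).toRingHom.codRestrict G.openChart (G.pullHom_mem_openChart true)
  let aO : G.openChart := ⟨_, G.baseHom_mem_openChart G.hasse⟩
  let γO : G.openChart := ⟨_, G.algebraMap_mem_openChart γ⟩
  have hrw : G.oRed none ⟨_, hw⟩ =
      HahnSeries.C (X.resK γ) * G.thbar ^ (q - 1) * G.hasseRes ^ (q - 1) := by
    rw [G.oRed_apply]
    show G.red none (_ / (q : G.splitField)) = _
    rw [mul_div_right_comm, G.red_mul hxq (pow_mem (hEV _) _), G.red_pow (hEV _), hxr,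
      G.red_sepFun, if_pos rfl]
  have hpull : ∀ x, G.oRed none (pullO x) = G.redC x := fun x =>
    (G.oRed_apply none _).trans (G.red_pullHom (by simp) x)
  have haO : G.oRed none aO = G.hasseRes :=
    (G.oRed_apply none aO).trans (G.red_baseHom_hasse none)
  have h1 : P.φ (⟨_, hw⟩ ^ 6 * pullO G.hasse) =
      P.φ (γO ^ 6 * pullO R ^ (q - 1) * aO ^ (6 * (q - 1))) := by
    refine P.eq_of_red hκ ?_
    simp only [map_mul, map_pow, hrw, hpull]
    rw [haO,
      show G.oRed none γO = HahnSeries.C (X.resK γ) from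
        (G.oRed_apply none _).trans (G.red_algebraMap none γ)]
    have e : (G.thbar ^ (q - 1)) ^ 6 * G.redC G.hasse = G.redC R ^ (q - 1) := by
      rw [pow_right_comm, hθ, mul_pow, mul_assoc, mul_comm (X.discBar M₁ ^ (q - 1)),
        G.redC_hasse, mul_one]
    rw [← e]
    ring
  rw [map_mul, map_mul, map_mul, map_pow, h0, zero_pow (by norm_num), zero_mul, map_pow, map_pow,
    map_pow, eq_comm, mul_eq_zero, mul_eq_zero] at h1
  rcases h1 with (h1 | h1) | h1
  · have h2 := eq_zero_of_pow_eq_zero h1
    rw [P.const γ γO rfl] at h2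
    exact hγ h2
  · have h2 := congrArg (P.φ.comp pullO) hRR
    rw [map_mul, map_one, RingHom.comp_apply, eq_zero_of_pow_eq_zero h1, zero_mul] at h2
    exact zero_ne_one h2
  · have h2 := eq_zero_of_pow_eq_zero h1
    refine hκ ?_
    rw [← h2]
    refine P.eq_of_red hκ ?_
    rw [oRed_sepO, if_pos rfl, haO]

/-- The generators of the kernel at a point on an outer component. -/
theorem Point.gen_outer (P : G.Point G.openChart) {c : Bool} (hκ : P.φ (G.sepO (some c)) ≠ 0)
    {y : G.openChart} {z s g : G.openChart} (hs : P.φ s ≠ 0)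
    (h : G.oRed (some c) (s * z) = G.oRed (some c) (y * g)) :
    ∃ s' : G.openChart, P.φ s' ≠ 0 ∧ ∃ a b : G.openChart,
      s' * z = a * (q : G.openChart) + b * y := by
  set E := G.sepO (some c) with hE
  set D := s * z - y * g with hD
  have hDred : G.red (some c) (D : G.splitField) = 0 := by
    rw [← G.oRed_apply, hD, map_sub, h, sub_self]
  have hV : ∀ κ,
      (D : G.splitField) * (E : G.splitField) ^ (q - 1) / (q : G.splitField) ∈ G.V κ := by
    intro κ
    rcases eq_or_ne κ (some c) with rfl | hne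
    · rw [mul_div_right_comm]
      refine mul_mem ?_ (pow_mem (G.openChart_le_V _ E.2) _)
      have := G.pow_div_q_mem_V (κ := some c) (n := 1) le_rfl (G.openChart_le_V _ D.2) hDred
      rwa [pow_one] at this
    · rw [mul_div_assoc]
      exact mul_mem (G.openChart_le_V _ D.2) (G.pow_div_q_mem_V (ramExp_le _)
        (G.openChart_le_V _ E.2) (by
          show G.red κ (G.sepFun (some c)) = 0
          rw [G.red_sepFun, if_neg hne]))
  have hW := G.div_q_mem_openChart (mul_mem D.2 (pow_mem E.2 (q - 1))) hV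
  refine ⟨E ^ (q - 1) * s, by rw [map_mul, map_pow]; exact mul_ne_zero (pow_ne_zero _ hκ) hs,
    ⟨_, hW⟩, E ^ (q - 1) * g, ?_⟩
  have e : (⟨_, hW⟩ : G.openChart) * (q : G.openChart) = D * E ^ (q - 1) := Subtype.ext (by
    push_cast
    exact div_mul_cancel₀ _ G.q_ne_zero_split)
  rw [e, hD]
  ring

/-- The generators of the kernel at a point on the middle component. -/
theorem Point.gen_middle (P : G.Point G.openChart) (hκ : P.φ (G.sepO none) ≠ 0)
    {y : G.openChart} {z s g : G.openChart} (hs : P.φ s ≠ 0)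
    (h : G.oRed none (s * z) = G.oRed none (y * g)) :
    ∃ s' : G.openChart, P.φ s' ≠ 0 ∧ ∃ a b : G.openChart,
      s' * z = a * G.diffH + b * y := by
  obtain ⟨w, hw, hwe⟩ := P.exists_middle_unit hκ
  set x := G.diffH with hx
  set E := G.sepO none with hE
  set D := s * z - y * g with hD
  have hDred : G.red none (D : G.splitField) = 0 := by
    rw [← G.oRed_apply, hD, map_sub, h, sub_self]
  obtain ⟨r, hr⟩ : ∃ r, q = r + 2 := ⟨q - 2, by have := X.prime.two_le; omega⟩
  have hV : ∀ κ, (D : G.splitField) * (x : G.splitField) ^ r * (E : G.splitField) ^ (q - 1) /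
      (q : G.splitField) ∈ G.V κ := by
    intro κ
    cases κ with
    | none =>
      rw [mul_div_right_comm]
      refine mul_mem ?_ (pow_mem (G.openChart_le_V _ E.2) _)
      have := G.prod_div_q_mem_V (κ := none) (Finset.univ : Finset (Option (Fin r)))
        (by simp [ramExp]; omega)
        (z := fun i => i.elim (D : G.splitField) fun _ => (x : G.splitField))
        (fun i _ => by cases i <;> exact G.openChart_le_V _ (Subtype.coe_prop _))
        (fun i _ => by
          cases i with
          | none => exact hDred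
          | some j => exact G.red_diffH)
      simpa [Fintype.prod_option] using this
    | some c =>
      rw [mul_div_assoc]
      exact mul_mem (mul_mem (G.openChart_le_V _ D.2) (pow_mem (G.openChart_le_V _ x.2) _))
        (G.pow_div_q_mem_V (ramExp_le _) (G.openChart_le_V _ E.2) (by
          show G.red (some c) (G.sepFun none) = 0
          rw [G.red_sepFun, if_neg (by simp)]))
  have hW := G.div_q_mem_openChart (mul_mem (mul_mem D.2 (pow_mem x.2 r)) (pow_mem E.2 (q - 1))) hV
  refine ⟨w * s, by rw [map_mul]; exact mul_ne_zero hw hs, ⟨_, hW⟩, w * g, ?_⟩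
  have e : (⟨_, hW⟩ : G.openChart) * x = D * w := Subtype.ext (by
    push_cast
    rw [hwe, show (q - 1 : ℕ) = r + 1 by omega]
    show _ = _ * (_ * (E : G.splitField) ^ (r + 1) / _)
    ring)
  rw [e, hD]
  ring

variable (G)

theorem singleAt_ordinary (P : G.Point G.openChart) (hP : ¬ G.Supersingular P) : SingleAt P := by
  classical
  obtain ⟨κ₀, hκ⟩ := P.exists_sep hP
  obtain ⟨b, hb⟩ : ∃ b, κ₀ ≠ some b := by
    rcases κ₀ with _ | c
    · exact ⟨true, by simp⟩
    · exact ⟨!c, by simp⟩
  obtain ⟨c', hc'⟩ := X.resK_surjective (P.genVal b (G.genPull b G.h))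
  let y : G.openChart := G.genIncl b (G.unif b c')
  have hy : P.φ y = 0 := P.genVal_unif c' hc'.symm
  have hyr : G.oRed κ₀ y ≠ 0 := genRed_unif_ne_zero hb c'
  have hval : ∀ s : G.openChart, G.oRed κ₀ s ≠ 0 → (G.V κ₀).valuation (s : G.splitField) = 1 := by
    intro s hs
    refine le_antisymm (((G.V κ₀).valuation_le_one_iff _).mpr (G.openChart_le_V _ s.2))
      (not_lt.mp fun hlt => hs ?_)
    rw [G.oRed_apply]
    exact (G.red_eq_zero_iff (G.openChart_le_V _ s.2)).mpr hlt
  obtain ⟨x, hx0, hxne, hxr, hgen⟩ : ∃ x : G.openChart, P.φ x = 0 ∧ (x : G.splitField) ≠ 0 ∧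
      G.oRed κ₀ x = 0 ∧ ∀ z : G.openChart, P.φ z = 0 →
        ∃ s : G.openChart, P.φ s ≠ 0 ∧ ∃ a a' : G.openChart, s * z = a * x + a' * y := by
    cases κ₀ with
    | none =>
      have hxr : G.oRed none G.diffH = 0 := (G.oRed_apply none _).trans G.red_diffH
      refine ⟨G.diffH, P.eq_zero_of_red hκ hxr, G.diffH_ne_zero, hxr, fun z hz => ?_⟩
      obtain ⟨s, g, hs, h⟩ := exists_mul_unif P hκ hb c' hc'.symm hz
      exact P.gen_middle hκ hs h
    | some c =>
      have hxr : G.oRed (some c) (q : G.openChart) = 0 := by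
        rw [map_natCast, ← map_natCast (HahnSeries.C : X.k →+* LaurentSeries X.k), X.natCast_k,
          map_zero]
      refine ⟨(q : G.openChart), P.φ_natCast_q, by push_cast; exact G.q_ne_zero_split, hxr,
        fun z hz => ?_⟩
      obtain ⟨s, g, hs, h⟩ := exists_mul_unif P hκ hb c' hc'.symm hz
      exact P.gen_outer hκ hs h
  let R : RegPoint G.openChart P.φ :=
    { S := G.openChart
      le := le_rfl
      noeth := G.isNoetherianRing_openChart
      frac := G.exists_frac_openChart
      integral := fun a ha =>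
          isIntegral_algebraMap (A := G.splitField) (x := (⟨a, ha⟩ : G.openChart))
      x := x
      y := y
      φ_x := hx0
      φ_y := hy
      gen := hgen
      V := G.V κ₀
      le_V := fun a ha => G.openChart_le_V κ₀ ha
      x_ne := hxne
      x_lt := (G.red_eq_zero_iff (G.openChart_le_V _ x.2)).mp ((G.oRed_apply κ₀ x).symm.trans hxr)
      y_unit := hval y hyr }
  refine ⟨κ₀, R, G.algebraMap_mem_openChart,
    G.vertGeneric_openChart R G.algebraMap_mem_openChart G.baseHom_h_mem_openChart
      G.baseHom_Dinv_mem_openChart,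
    fun s hs => hval s fun h0 => hs (P.eq_zero_of_red hκ h0), rfl, fun κ hκne => ?_⟩
  refine ⟨G.sepO κ₀, hκ, ?_⟩
  show G.red κ (G.sepFun κ₀) = 0
  rw [G.red_sepFun, if_neg hκne]

/-- **Gluing at ordinary points.** -/
theorem glueOrdinary : G.GlueOrdinary := fun _ hm _ β P hP j _ =>
  glueOn_of_single (fun κ _ hb => G.openChart_le_V κ hb) (G.singleAt_ordinary P hP) hm β j

end Model

end FLTAgent.CarayolSquare
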