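import Fermat.Agent.CarayolSquare.Geometry.Final
import Fermat.Agent.CarayolSquare.Supersingular.Derivative

/-!
# The open chart

It contains all generators of `splitField` (`gen_mem_openChart`), is saturated for `q` among
functions integral at the three components (`mem_openChart_of_q_pow_mul`), and has functions
`sepFun` separating the components; `oRed` is its reduction at a component.
-/

set_option autoImplicit false

noncomputable section

open ModularCurve Polynomial

namespace FLTAgent.CarayolSquare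

local notation "Qbar" => AlgebraicClosure ℚ

theorem map_mem_intSet {O A B : Type*} [CommRing O] [Field A] [Field B] [Algebra O A] [Algebra O B]
    (f : A →ₐ[O] B) {s : Set A} {t : Set B} (h : ∀ x ∈ s, f x ∈ t) {z : A} (hz : z ∈ intSet O s) :
    f z ∈ intSet O t := by
  obtain ⟨P, hP, hPz⟩ := hz
  have hle : ∀ a ∈ Algebra.adjoin O s, f a ∈ Algebra.adjoin O t := fun a ha => by
    have h1 := (Subalgebra.mem_map (f := f)).mpr ⟨a, ha, rfl⟩
    rw [AlgHom.map_adjoin] at h1
    exact Algebra.adjoin_mono (Set.image_subset_iff.mpr h) h1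
  let g : Algebra.adjoin O s →+* Algebra.adjoin O t :=
    (f.toRingHom.comp (Algebra.adjoin O s).val.toRingHom).codRestrict _ fun a => hle a a.2
  refine ⟨P.map g, hP.map g, ?_⟩
  rw [eval₂_map]
  show eval₂ (f.toRingHom.comp (algebraMap (Algebra.adjoin O s) A)) (f.toRingHom z) P = 0
  rw [← hom_eval₂, hPz, map_zero]

variable {q : ℕ}

theorem Ctx.gaussRes_natCast_q (X : Ctx q) : X.gaussRes (q : X.gaussRing) = 0 := by
  rw [map_natCast, ← map_natCast (HahnSeries.C : X.k →+* LaurentSeries X.k), X.natCast_k, map_zero]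

variable [NeZero q] [Fact q.Prime]

namespace Model

variable {X : Ctx q} {M₁ : ℕ} [NeZero M₁] (G : Model X M₁)

omit [Fact (Nat.Prime q)] [NeZero q] in
theorem baseHom_h_mem_openChart : G.baseHom G.h ∈ G.openChart :=
  subset_intSet _ (Set.mem_insert _ _)

omit [Fact (Nat.Prime q)] [NeZero q] in
theorem baseHom_Dinv_mem_openChart : G.baseHom G.Dinv ∈ G.openChart :=
  subset_intSet _ (Set.mem_insert_of_mem _ rfl)

/-- An element killed by a monic polynomial with coefficients from `C` is in the open chart. -/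
theorem mem_openChart_of_root {z : G.splitField} {Q : Ser[X]} (hQ : Q.Monic)
    (hz : Q.eval (z : Ser) = 0) (hc : ∀ n, ∃ c : G.C, Q.coeff n = X.up (c : Ser)) :
    z ∈ G.openChart := by
  let θ : G.openChart →+* Ser := G.valO.toRingHom.comp G.openChart.subtype
  obtain ⟨R, hR, -, hRm⟩ := lifts_and_degree_eq_and_monic (f := θ) ((lifts_iff_coeff_lifts Q).mpr
    fun n => by
      obtain ⟨c, hc⟩ := hc n
      exact ⟨⟨_, G.baseHom_mem_openChart c⟩, (G.coe_baseHom c).trans hc.symm⟩) hQ
  refine G.mem_openChart_of_isIntegral ⟨R, hRm, G.valO.toRingHom.injective ?_⟩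
  rw [map_zero, hom_eval₂]
  show eval₂ θ (z : Ser) R = 0
  rw [← eval_map, hR, hz]

/-- All values along the two lines lie in the open chart. -/
theorem gen_mem_openChart (b : Bool) (v : Gen G.C) : G.gen b v ∈ G.openChart := by
  classical
  let P : Polynomial G.LinePoly :=
    ∏ L : Line q, (Polynomial.X - Polynomial.C (MvPolynomial.X (L, v)))
  have hev : P.map (G.evL G.one).toRingHom =
      ∏ L : Line q, (Polynomial.X - Polynomial.C (G.gs G.one L v)) := by
    simp only [P, Polynomial.map_prod, Polynomial.map_sub, Polynomial.map_X, Polynomial.map_C,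
      AlgHom.toRingHom_eq_coe, RingHom.coe_coe, evL, MvPolynomial.aeval_X]
  have hsym : ∀ π : Equiv.Perm (Line q),
      P.map (MvPolynomial.rename (Prod.map π id) : G.LinePoly →ₐ[X.O]
          G.LinePoly).toRingHom = P := by
    intro π
    simp only [P, Polynomial.map_prod, Polynomial.map_sub, Polynomial.map_C, Polynomial.map_X,
      AlgHom.toRingHom_eq_coe, RingHom.coe_coe, MvPolynomial.rename_X, Prod.map_apply, id_eq]
    exact Fintype.prod_equiv π _ (fun L => Polynomial.X - Polynomial.C (MvPolynomial.X (L, v)))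
      fun _ => rfl
  refine G.mem_openChart_of_root (Q := P.map (G.evL G.one).toRingHom) ?_ ?_ fun n => ?_
  · rw [hev]; exact monic_prod_of_monic _ _ fun _ _ => monic_X_sub_C _
  · rw [hev, eval_prod]
    refine Finset.prod_eq_zero (Finset.mem_univ ((Pair.base q).line b)) ?_
    rw [eval_sub, eval_X, eval_C]
    exact sub_self _
  · obtain ⟨c, hc⟩ := G.symm (P.coeff n) fun π => by
      have := congrArg (fun R => Polynomial.coeff R n) (hsym π)
      simpa using this
    refine ⟨c, ?_⟩
    rw [coeff_map]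
    exact (hc G.one).trans (by rw [G.cs_one])

omit [Fact (Nat.Prime q)] in
/-- A series of the base field which is integral at the Gauss valuation and has a multiple by a
power
of `q` in `C` is in `C`. -/
theorem mem_C_of_q_pow : ∀ (N : ℕ) (r : Ser), X.up r ∈ X.gaussRing → (q : Ser) ^ N * r ∈ G.C →
    r ∈ G.C := by
  intro N
  induction N with
  | zero => intro r _ h; rwa [pow_zero, one_mul] at h
  | succ N ih =>
    intro r hr h
    refine ih r hr ?_
    have hq' : (q : Ser) ^ N * r * q = (q : Ser) ^ (N + 1) * r := by ring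
    have h2 : X.up ((q : Ser) ^ N * r) ∈ X.gaussRing := by
      rw [map_mul, map_pow, map_natCast]; exact mul_mem (pow_mem (natCast_mem _ _) _) hr
    have hgood := X.up_mem_goodSer (X.goodSer_of_coeffInO (G.coeff_mem _ h))
    have h0 : X.redS ⟨_, hgood.1⟩ = 0 := by
      rw [← X.gaussRes_of_intSer,
        show (⟨X.up ((q : Ser) ^ (N + 1) * r), X.intSer_le_gaussRing hgood.1⟩ : X.gaussRing) =
          (⟨_, h2⟩ : X.gaussRing) * (q : X.gaussRing) from Subtype.ext (by
          show X.up _ = X.up ((q : Ser) ^ N * r) * ((q : X.gaussRing) : Ser)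
          rw [← hq', map_mul, map_natCast]; norm_cast), map_mul, X.gaussRes_natCast_q, mul_zero]
    have hred : X.RedZero ((q : Ser) ^ (N + 1) * r) := fun k => by
      have h4 := (X.redS_eq_zero_iff _).mp h0 ((q : ℤ) * k)
      rwa [show (X.up ((q : Ser) ^ (N + 1) * r)).coeff ((q : ℤ) * k) =
        ((q : Ser) ^ (N + 1) * r).coeff k from qExpand_coeff_mul q _ k] at h4
    obtain ⟨c', hc', e⟩ := G.saturate _ h hred
    have hq0 : (q : Ser) ≠ 0 := by
      rw [← map_natCast (HahnSeries.C : Qbar →+* Ser)]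
      exact (_root_.map_ne_zero _).mpr X.q_ne_zero
    rwa [show (q : Ser) ^ N * r = c' from mul_left_cancel₀ hq0 (by rw [← e]; ring)]

/-- **The open chart is saturated.** -/
theorem mem_openChart_of_q_pow_mul {z : G.splitField} (k : ℕ)
    (hz : (q : G.splitField) ^ k * z ∈ G.openChart) (hV : ∀ κ, z ∈ G.V κ) : z ∈ G.openChart := by
  classical
  obtain ⟨a, d, hd, hcoef⟩ := G.exists_coeff z
  set Q := ∏ P : Pair q, (Polynomial.X - Polynomial.C (G.emb G.one P z)) with hQ
  have hQm : Q.Monic := monic_prod_of_monic _ _ fun _ _ => monic_X_sub_C _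
  choose hgm hge using fun P : Pair q => G.emb_red P (hV (kindOf P))
  have hQG : Q = (∏ P : Pair q, (Polynomial.X - Polynomial.C (⟨_, hgm P⟩ : X.gaussRing))).map
      X.gaussRing.subtype := by simp [hQ, Polynomial.map_prod]
  let R : Subring Ser := intSet X.O ({X.up (G.h : Ser), X.up (G.Dinv : Ser)} : Set Ser)
  have hR : ∀ P : Pair q, ((q : Ser) ^ k * G.emb G.one P z) ∈ R := fun P => by
    have h1 := map_mem_intSet (G.embO G.one P) (t := {X.up (G.h : Ser), X.up (G.Dinv : Ser)})
      (fun x hx => ?_) hz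
    · rwa [G.embO_apply, map_mul, map_pow, map_natCast] at h1
    · rcases hx with rfl | hx
      · exact Or.inl (by rw [G.embO_apply, G.emb_baseHom, G.cs_one])
      · exact Or.inr (by
            rw [Set.mem_singleton_iff.mp hx, G.embO_apply, G.emb_baseHom, G.cs_one]; rfl)
  let N := Fintype.card (Pair q)
  set Q' := ∏ P : Pair q, (Polynomial.X - Polynomial.C ((q : Ser) ^ k * G.emb G.one P z)) with hQ'
  have hQ'R : ∀ n, Q'.coeff n ∈ R := fun n => by
    have : Q' = (∏ P : Pair q, (Polynomial.X - Polynomial.C (⟨_, hR P⟩ : R))).map R.subtype := by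
      simp [hQ', Polynomial.map_prod]
    rw [this, coeff_map]
    exact Subtype.coe_prop _
  have hscale : Q'.comp (Polynomial.C ((q : Ser) ^ k) * Polynomial.X) =
      Polynomial.C (((q : Ser) ^ k) ^ N) * Q := by
    rw [hQ', hQ, prod_comp, map_pow (Polynomial.C : Ser →+* Ser[X]) ((q : Ser) ^ k) N,
      show (Polynomial.C ((q : Ser) ^ k)) ^ N =
        ∏ _P : Pair q, Polynomial.C ((q : Ser) ^ k) by rw [Finset.prod_const, Finset.card_univ],
      ← Finset.prod_mul_distrib]
    refine Finset.prod_congr rfl fun P _ => ?_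
    rw [sub_comp, X_comp, C_comp, mul_sub, ← map_mul]
  refine G.mem_openChart_of_root hQm ?_ fun n => ?_
  · rw [hQ, eval_prod]
    refine Finset.prod_eq_zero (Finset.mem_univ (Pair.base q)) ?_
    rw [eval_sub, eval_X, eval_C, G.emb_base, sub_self]
  let r : Ser := (a n : Ser) / (d : Ser)
  have hup : X.up r = Q.coeff n := by
    rw [← hcoef n (kindPair none), map_div₀, map_div₀, G.emb_baseHom, G.emb_baseHom, G.cs_one,
      G.cs_one]
  refine ⟨⟨r, G.mem_C_of_q_pow (k * N) r
      (by rw [hup, hQG, coeff_map]; exact Subtype.coe_prop _) ?_⟩,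
    hup.symm⟩
  refine G.normal _ ?_ ?_
  · exact mul_mem (pow_mem (natCast_mem _ _) _) (div_mem
      (IntermediateField.subset_adjoin _ _ (a n).2) (IntermediateField.subset_adjoin _ _ d.2))
  · have h1 : ((q : Ser) ^ k) ^ N * Q.coeff n ∈ R := by
      have h2 := congrArg (fun T => Polynomial.coeff T n) hscale
      simp only [comp_C_mul_X_coeff, coeff_C_mul] at h2
      rw [← h2]
      exact mul_mem (hQ'R n) (pow_mem (pow_mem (natCast_mem _ _) _) _)
    rw [← pow_mul, ← hup, ← map_natCast X.up, ← map_pow, ← map_mul] at h1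
    obtain ⟨P, hP, hPz⟩ := h1
    have himg : (X.upA '' ({(G.h : Ser), (G.Dinv : Ser)} : Set Ser)) =
        {X.up (G.h : Ser), X.up (G.Dinv : Ser)} := by
      rw [Set.image_pair]; rfl
    have hsurj : ∀ i, ∃ c ∈ Algebra.adjoin X.O ({(G.h : Ser), (G.Dinv : Ser)} : Set Ser),
        X.upA c = (P.coeff i : Ser) := fun i => by
      have := SetLike.le_def.mp (le_of_eq (congrArg (Algebra.adjoin X.O) himg.symm)) (P.coeff i).2
      rwa [← AlgHom.map_adjoin, Subalgebra.mem_map] at this
    choose c hc hce using hsurj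
    let g : Algebra.adjoin X.O ({(G.h : Ser), (G.Dinv : Ser)} : Set Ser) →+* Ser :=
      X.upA.toRingHom.comp (algebraMap _ Ser)
    obtain ⟨S, hS, -, hSm⟩ := lifts_and_degree_eq_and_monic (f := g)
      (p := P.map (algebraMap _ Ser)) ((lifts_iff_coeff_lifts _).mpr fun i =>
        ⟨⟨c i, hc i⟩, by rw [coeff_map]; exact hce i⟩) (hP.map _)
    refine ⟨S, hSm, X.up.injective ?_⟩
    rw [map_zero]
    show X.upA.toRingHom (eval₂ (algebraMap _ Ser) _ S) = 0
    rw [hom_eval₂, ← eval_map]
    show eval _ (S.map g) = 0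
    rw [hS, eval_map]
    exact hPz

/-- Translates of the base functions along a line. -/
def pullHom (b : Bool) : G.C →ₐ[X.O] G.splitField where
  toFun c := G.gen b (.pull c)
  map_one' := Subtype.ext (by
    show X.sub _ (G.cs _ 1) = 1
    rw [map_one, map_one])
  map_mul' x y := Subtype.ext (by
    show X.sub _ (G.cs _ (x * y)) = X.sub _ (G.cs _ x) * X.sub _ (G.cs _ y)
    rw [map_mul, map_mul])
  map_zero' := Subtype.ext (by
    show X.sub _ (G.cs _ 0) = 0
    rw [map_zero, map_zero])
  map_add' x y := Subtype.ext (by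
    show X.sub _ (G.cs _ (x + y)) = X.sub _ (G.cs _ x) + X.sub _ (G.cs _ y)
    rw [map_add, map_add])
  commutes' r := Subtype.ext (by
    show X.sub _ (G.cs _ (algebraMap X.O G.C r)) = algebraMap X.K Ser (r : X.K)
    rw [AlgHom.commutes, X.sub_algebraMap, X.algebraMap_eq])

theorem pullHom_mem_openChart (b : Bool) (c : G.C) : G.pullHom b c ∈ G.openChart :=
  G.gen_mem_openChart b _

theorem line_kindPair_some {b : Bool} {κ : Option Bool} (h : κ ≠ some b) :
    ∃ x : ZMod q, (kindPair (q := q) κ).line b = some x := by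
  rcases κ with _ | _ | _ <;> cases b <;> simp [kindPair, Pair.line, Pair.base] at h ⊢

theorem line_kindPair_self (b : Bool) : (kindPair (q := q) (some b)).line b = none := by
  cases b <;> rfl

theorem red_pullHom {b : Bool} {κ : Option Bool} (h : κ ≠ some b) (c : G.C) :
    G.red κ (G.pullHom b c) = G.redC c := by
  obtain ⟨x, hx⟩ := line_kindPair_some (q := q) h
  have hI := X.sub_some_mem_intSer x (G.coe_mem_intSer c)
  obtain ⟨-, hr⟩ := G.red_of_emb (κ := κ) (z := G.pullHom b c)
    ⟨((⟨_, hI⟩ : X.intSer) : Ser), X.intSer_le_gaussRing hI⟩ (by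
      show G.emb G.one _ (G.gen b (.pull c)) = _
      rw [G.emb_gen, hx]
      show X.sub (some x) (G.cs (G.twB G.one) c) = _
      rw [G.twB_one, G.cs_one])
  rw [hr, X.gaussRes_of_intSer, X.redS_sub_some x (G.coe_mem_intSer c)]
  rfl

theorem redC_hasse_ne_zero : G.redC G.hasse ≠ 0 := left_ne_zero_of_mul_eq_one G.redC_hasse

/-- The common residue of the Hasse invariant. -/
def hasseRes : LaurentSeries X.k := qExpand X.k q (G.redC G.hasse)

theorem hasseRes_eq : G.hasseRes = G.redC G.hasse ^ q := G.redC_hasse_pow.symm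

theorem hasseRes_ne_zero : G.hasseRes ≠ 0 := by
  rw [hasseRes_eq]; exact pow_ne_zero _ G.redC_hasse_ne_zero

theorem red_baseHom_hasse (κ : Option Bool) : G.red κ (G.baseHom G.hasse) = G.hasseRes :=
  G.red_baseHom_qExpand κ _

theorem red_disc (b : Bool) (κ : Option Bool) :
    G.red κ (G.gen b .disc ^ q) = if κ = some b then 0 else G.hasseRes := by
  have hI : ∀ L : Line q, discFam X M₁ L ∈ X.intSer := fun L => (X.discFam_mem_goodSer M₁ L).1
  obtain ⟨hV, hr⟩ := G.red_of_emb (κ := κ) (z := G.gen b .disc)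
    ⟨((⟨_, hI ((kindPair κ).line b)⟩ : X.intSer) : Ser), X.intSer_le_gaussRing (hI _)⟩
    (by rw [G.emb_gen]; rfl)
  rw [G.red_pow hV, hr, X.gaussRes_of_intSer]
  split_ifs with h
  · subst h
    rw [show (⟨_, hI ((kindPair (some b)).line b)⟩ : X.intSer) = ⟨_, hI none⟩ from
      Subtype.ext (by rw [line_kindPair_self]), X.redS_discFam_none M₁,
      zero_pow X.prime.ne_zero]
  · obtain ⟨x, hx⟩ := line_kindPair_some (q := q) h
    rw [show (⟨_, hI ((kindPair κ).line b)⟩ : X.intSer) = ⟨_, hI (some x)⟩ from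
      Subtype.ext (by rw [hx]), G.hasseRes_eq]
    congr 1
    have hd : X.discBar M₁ ≠ 0 := left_ne_zero_of_mul_eq_one (X.discBar_mul M₁)
    refine mul_right_cancel₀ (pow_ne_zero q hd) ((X.redS_discFam_some M₁ x).trans ?_)
    show X.discBar M₁ = _
    have e : X.discBar M₁ ^ q = X.discBar M₁ ^ (q - 1) * X.discBar M₁ := by
      rw [← pow_succ, Nat.sub_add_cancel (NeZero.one_le : 1 ≤ q)]
    rw [e, ← mul_assoc, G.redC_hasse, one_mul]

/-- Functions of the open chart separating the components. -/
def sepFun : Option Bool → G.splitField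
  | none => G.gen true .disc ^ q + G.gen false .disc ^ q - G.baseHom G.hasse
  | some b => G.baseHom G.hasse - G.gen b .disc ^ q

theorem sepFun_mem_openChart (κ : Option Bool) : G.sepFun κ ∈ G.openChart := by
  cases κ with
  | none => exact sub_mem (add_mem (pow_mem (G.gen_mem_openChart _ _) _)
      (pow_mem (G.gen_mem_openChart _ _) _)) (G.baseHom_mem_openChart _)
  | some b => exact sub_mem (G.baseHom_mem_openChart _) (pow_mem (G.gen_mem_openChart _ _) _)

theorem sum_sepFun : ∑ κ, G.sepFun κ = G.baseHom G.hasse := by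
  simp only [Fintype.sum_option, Fintype.sum_bool, sepFun]
  ring

theorem red_sepFun (κ κ' : Option Bool) :
    G.red κ' (G.sepFun κ) = if κ' = κ then G.hasseRes else 0 := by
  have hV : ∀ b, G.gen b .disc ^ q ∈ G.V κ' := fun b =>
    G.openChart_le_V κ' (pow_mem (G.gen_mem_openChart b _) q)
  cases κ with
  | none =>
    rw [sepFun, G.red_sub (add_mem (hV _) (hV _)) (G.baseHom_mem_V _ _), G.red_add (hV _) (hV _),
      G.red_disc, G.red_disc, G.red_baseHom_hasse]
    rcases κ' with _ | _ | _ <;> simp
  | some b =>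
    rw [sepFun, G.red_sub (G.baseHom_mem_V _ _) (hV _), G.red_disc, G.red_baseHom_hasse]
    split_ifs <;> simp

/-- The residue maps on the open chart. -/
def oRed (κ : Option Bool) : G.openChart →+* LaurentSeries X.k :=
  (G.resV κ).comp (G.openChart.subtype.codRestrict (G.V κ).toSubring fun z =>
    G.openChart_le_V κ z.2)

theorem oRed_apply (κ : Option Bool) (z : G.openChart) : G.oRed κ z = G.red κ z :=
  (G.red_eq (G.openChart_le_V κ z.2)).symm

end Model

end FLTAgent.CarayolSquare
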