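import Fermat.Agent.CarayolSquare.Geometry.Points

/-!
# Reduction of level `M₁` functions in their own parameter

`redC` reduces a function of level `M₁` as a series in the parameter of that level.
-/

set_option autoImplicit false

noncomputable section

namespace FLTAgent.CarayolSquare

variable {q : ℕ}

namespace Model

variable {X : Ctx q} {M₁ : ℕ} [NeZero M₁] (G : Model X M₁)

theorem coe_mem_intSer (c : G.C) : (c : Ser) ∈ X.intSer :=
  (X.goodSer_of_coeffInO (G.coeff_mem _ c.2)).1

/-- Reduction modulo `q` of a function of level `M₁`, in its own parameter. -/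
def redC : G.C →+* LaurentSeries X.k :=
  X.redS.comp (G.C.val.toRingHom.codRestrict X.intSer G.coe_mem_intSer)

theorem redC_apply (c : G.C) : G.redC c = X.redS ⟨(c : Ser), G.coe_mem_intSer c⟩ := rfl

theorem redC_eq_zero_iff (c : G.C) : G.redC c = 0 ↔ X.RedZero (c : Ser) :=
  X.redS_eq_zero_iff _

end Model

end FLTAgent.CarayolSquare
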