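import Fermat.Agent.CarayolSquare.Ordinary.Chart

/-!
# Divisibility by `q` at the components

A function with vanishing residue at an outer component is divisible by `q` there, at the middle
component its `(q - 1)`-st power is (`pow_div_q_mem_V`); functions of the open chart with vanishing
residues vanish at every point (`Point.eq_zero_of_oRed`).
-/

set_option autoImplicit false

noncomputable section

open ModularCurve Polynomial

namespace FLTAgent.CarayolSquare

local notation "Qbar" => AlgebraicClosure ℚ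

variable {q : ℕ}

namespace Ctx

variable (X : Ctx q)

/-- Series with coefficients in a field. -/
def serIn (L : IntermediateField X.K Qbar) : Subring Ser where
  carrier := {s | ∀ n, s.coeff n ∈ L}
  mul_mem' := by
    intro a b ha hb n
    rw [HahnSeries.coeff_mul]
    exact sum_mem fun x _ => mul_mem (ha _) (hb _)
  one_mem' n := by
    rw [HahnSeries.coeff_one]
    split
    · exact one_mem _
    · exact zero_mem _
  add_mem' := fun ha hb n => by
    rw [HahnSeries.coeff_add]
    exact add_mem (ha n) (hb n)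
  zero_mem' n := by simp
  neg_mem' := fun ha n => by
    rw [HahnSeries.coeff_neg]
    exact neg_mem (ha n)

/-- Values below `1` in a field have `r`-th power at most that of `q`. -/
def ValBound (L : IntermediateField X.K Qbar) (r : ℕ) : Prop :=
  ∀ a ∈ L, X.A.valuation a < 1 → X.A.valuation a ^ r ≤ X.A.valuation (q : Qbar)

theorem valuation_K_le {c : X.K} (hc : X.A.valuation (algebraMap X.K Qbar c) < 1) :
    X.A.valuation (algebraMap X.K Qbar c) ≤ X.A.valuation (q : Qbar) := by
  obtain ⟨o, rfl⟩ := X.exists_O_of_mem c ((X.A.valuation_le_one_iff _).mp hc.le)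
  obtain ⟨d, hd⟩ := (X.fixedData.lt_one_iff o).mp (by rw [X.fixedData_A]; exact hc)
  rw [hd, X.fixedData_π, Subring.coe_mul, map_mul, map_mul,
    show algebraMap X.K Qbar ((q : X.O) : X.K) = (q : Qbar) by
        push_cast; exact map_natCast (algebraMap X.K Qbar) q]
  exact mul_le_of_le_one_right' ((X.A.valuation_le_one_iff _).mpr d.2)

theorem valBound_bot : X.ValBound ⊥ 1 := by
  intro a ha h
  obtain ⟨c, rfl⟩ := IntermediateField.mem_bot.mp ha
  rw [pow_one]
  exact X.valuation_K_le h

theorem natDegree_minpoly_le {a : Qbar} (ha : a ∈ X.L₁) : (minpoly X.K a).natDegree ≤ q - 1 := by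
  have : Fact q.Prime := ⟨X.prime⟩
  have hint : IsIntegral X.K X.ζ := IsIntegral.tower_top (R := ℚ) (isIntegral_Qbar _)
  have hroot : aeval X.ζ (cyclotomic q X.K) = 0 := by
    rw [aeval_def, eval₂_eq_eval_map, map_cyclotomic]
    exact (X.hζ.isRoot_cyclotomic X.prime.pos)
  have hdeg : (minpoly X.K X.ζ).natDegree ≤ q - 1 := by
    refine (natDegree_le_of_dvd (minpoly.dvd X.K X.ζ hroot) (cyclotomic_ne_zero q X.K)).trans ?_
    rw [natDegree_cyclotomic, Nat.totient_prime X.prime]
  have : FiniteDimensional X.K X.L₁ := IntermediateField.adjoin.finiteDimensional hint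
  have h1 : Module.finrank X.K X.L₁ ≤ q - 1 := by
    rw [L₁, IntermediateField.adjoin.finrank hint]; exact hdeg
  have h2 := minpoly.natDegree_le (A := X.K) (⟨a, ha⟩ : X.L₁)
  rw [← minpoly.algebraMap_eq (FaithfulSMul.algebraMap_injective X.L₁ Qbar)] at h2
  exact h2.trans h1

theorem valBound_L₁ : X.ValBound X.L₁ (q - 1) := by
  intro a ha hlt
  obtain ⟨N, k, hpos, hk, hval⟩ := X.exists_valuation_pow_eq a
  have hcard : k ≤ q - 1 := hk.trans (X.natDegree_minpoly_le ha)
  have h1 := X.valuation_K_le (c := N)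
    (by rw [hval]; exact pow_lt_one₀ zero_le hlt hpos.ne')
  rw [hval] at h1
  exact (pow_le_pow_of_le_one zero_le hlt.le hcard).trans h1

theorem exists_coeff_valuation_eq {s s' : X.intSer} {c : Qbar}
    (h : (s : Ser) = (HahnSeries.C c : Ser) * (s' : Ser)) (h' : X.redS s' ≠ 0) :
    ∃ n, X.A.valuation ((s : Ser).coeff n) = X.A.valuation c := by
  rw [Ne, X.redS_eq_zero_iff] at h'
  obtain ⟨n, hn⟩ := not_forall.mp h'
  refine ⟨n, ?_⟩
  rw [h, HahnSeries.C_mul_eq_smul, HahnSeries.coeff_smul, smul_eq_mul, map_mul,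
    le_antisymm ((X.A.valuation_le_one_iff _).mpr (s'.2 n)) (not_lt.mp hn), mul_one]

/-- The positive orders of quotients of series over `L` are at least `q! / r`. -/
theorem HasOrd.factorial_le_mul {X : Ctx q} {z : Ser} {n : ℤ} (hn : X.HasOrd z n) (hpos : 0 < n)
    {L : IntermediateField X.K Qbar} (hL₁ : L ≤ X.L₁) {r : ℕ} (hr : X.ValBound L r)
    (a b : X.intSer) (ha : (a : Ser) ∈ X.serIn L) (hb : (b : Ser) ∈ X.serIn L)
    (hb0 : (b : Ser) ≠ 0) (h : z * b = a) : (q.factorial : ℤ) ≤ r * n := by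
  have ha0 : (a : Ser) ≠ 0 := by rw [← h]; exact mul_ne_zero hn.ne_zero hb0
  obtain ⟨c, a', -, hc0, hac, ha'⟩ := X.exists_normalise a (fun i => hL₁ (ha i)) ha0
  obtain ⟨d, b', -, hd0, hbd, hb'⟩ := X.exists_normalise b (fun i => hL₁ (hb i)) hb0
  obtain ⟨i, hi⟩ := X.exists_coeff_valuation_eq hac ha'
  obtain ⟨j, hj⟩ := X.exists_coeff_valuation_eq hbd hb'
  have hcd : z * (b' : Ser) = (HahnSeries.C (c / d) : Ser) * (a' : Ser) := by
    have hd : (HahnSeries.C d : Ser) ≠ 0 := by simpa using hd0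
    refine mul_left_cancel₀ hd ?_
    rw [← mul_assoc, ← mul_assoc, mul_comm _ z, mul_assoc z, ← hbd, h, hac, ← map_mul,
      mul_div_cancel₀ _ hd0]
  set e := (a : Ser).coeff i / (b : Ser).coeff j
  have hve : X.A.valuation e = X.A.valuation (c / d) := by rw [map_div₀, map_div₀, hi, hj]
  obtain ⟨c₁, a₁, b₁, ha₁, hb₁, h₁, hc₁⟩ := id hn
  have heq : X.A.valuation e ^ q.factorial = X.A.valuation (q : Qbar) ^ n := by
    rw [hve, ← hc₁]
    congr 1
    have e1 : (HahnSeries.C (c / d) : Ser) * ((a' * b₁ : X.intSer) : Ser) =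
        (HahnSeries.C c₁ : Ser) * ((a₁ * b' : X.intSer) : Ser) := by
      push_cast
      rw [← mul_assoc, ← hcd, ← mul_assoc, ← h₁]
      ring
    exact le_antisymm (X.valuation_le_of_eq (by rw [map_mul]; exact mul_ne_zero ha' hb₁) e1)
      (X.valuation_le_of_eq (by rw [map_mul]; exact mul_ne_zero ha₁ hb') e1.symm)
  have hlt : X.A.valuation e < 1 := by
    refine (pow_lt_one_iff (Nat.factorial_ne_zero q)).mp ?_
    rw [heq]
    exact zpow_lt_one₀ X.v_q_pos X.q_lt_one hpos
  have h3 := pow_le_pow_left₀ zero_le (hr e (div_mem (ha i) (hb j)) hlt) q.factorial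
  rw [← pow_mul, mul_comm r, pow_mul, heq, ← zpow_natCast (X.A.valuation (q : Qbar) ^ n) r,
    ← zpow_mul, ← zpow_natCast (X.A.valuation (q : Qbar)) q.factorial] at h3
  rw [mul_comm (r : ℤ) n]
  exact (zpow_le_zpow_iff_right_of_lt_one₀ X.v_q_pos X.q_lt_one).mp h3

theorem intCoeff_mem_serIn (L : IntermediateField X.K Qbar) {s : Ser}
    (h : ∀ n, ∃ z : ℤ, (z : Qbar) = s.coeff n) : s ∈ X.serIn L := fun n => by
  obtain ⟨z, hz⟩ := h n
  rw [← hz]
  exact intCast_mem L z

theorem qExpand_mem_serIn (L : IntermediateField X.K Qbar) (N : ℕ) [NeZero N] {s : Ser}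
    (hs : s ∈ X.serIn L) : qExpand Qbar N s ∈ X.serIn L := fun n => by
  by_cases hn : (N : ℤ) ∣ n
  · obtain ⟨k, rfl⟩ := hn
    rw [qExpand_coeff_mul]
    exact hs k
  · rw [qExpand_coeff_of_not_dvd N s hn]
    exact zero_mem _

theorem coeffInO_mem_serIn (L : IntermediateField X.K Qbar) {s : Ser} (h : X.CoeffInO s) :
    s ∈ X.serIn L := fun n => by
  obtain ⟨c, hc⟩ := h n
  rw [← hc]
  exact L.algebraMap_mem _

theorem sub_zero_eq [NeZero q] (s : Ser) : X.sub (some 0) s = s := by
  show Igusa.scale (X.zetaU 0) s = s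
  rw [show X.zetaU 0 = 1 from Units.ext (by show X.ζ ^ (0 : ZMod q).val = 1; simp),
    Igusa.scale_one]

theorem discSeries_mem_serIn (L : IntermediateField X.K Qbar) :
    Igusa.discSeries Qbar ∈ X.serIn L ∧ Igusa.discInvSeries Qbar ∈ X.serIn L := by
  constructor <;> refine X.intCoeff_mem_serIn L fun n => ?_
  · rw [← (Igusa.coeffMap_discSeries (Int.castRingHom Qbar)).1]
    exact ⟨_, rfl⟩
  · rw [← (Igusa.coeffMap_discSeries (Int.castRingHom Qbar)).2]
    exact ⟨_, rfl⟩

theorem discFam_mem_serIn [NeZero q] (M₁ : ℕ) [NeZero M₁] (L : IntermediateField X.K Qbar)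
    {l : Line q} (hl : l = none ∨ l = some 0) : discFam X M₁ l ∈ X.serIn L := by
  have h1 := X.qExpand_mem_serIn L M₁ (X.discSeries_mem_serIn L).1
  have h2 := X.qExpand_mem_serIn L M₁ (X.discSeries_mem_serIn L).2
  rcases hl with rfl | rfl
  · exact mul_mem (pow_mem (natCast_mem _ _) _) (mul_mem
      (X.qExpand_mem_serIn L q (X.qExpand_mem_serIn L q h1)) (X.qExpand_mem_serIn L q h2))
  · refine mul_mem ?_ (X.qExpand_mem_serIn L q h2)
    rw [X.sub_zero_eq]
    exact h1

end Ctx

variable [NeZero q] [Fact q.Prime]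

namespace Model

variable {X : Ctx q} {M₁ : ℕ} [NeZero M₁] (G : Model X M₁)

theorem gs_mem_serIn (L : IntermediateField X.K Qbar) {l : Line q} (hl : l = none ∨ l = some 0)
    (v : Gen G.C) : G.gs G.one l v ∈ X.serIn L := by
  cases v with
  | base a => exact X.qExpand_mem_serIn L q (X.coeffInO_mem_serIn L (G.cs_coeff _ a))
  | pull a =>
    rcases hl with rfl | rfl
    · exact X.qExpand_mem_serIn L q (X.qExpand_mem_serIn L q (X.coeffInO_mem_serIn L
        (G.cs_coeff _ a)))
    · show X.sub (some 0) (G.cs _ a) ∈ _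
      rw [X.sub_zero_eq]
      exact X.coeffInO_mem_serIn L (G.cs_coeff _ a)
  | disc => exact X.discFam_mem_serIn M₁ L hl

theorem evP_mem_serIn (L : IntermediateField X.K Qbar) {P : Pair q}
    (hP : ∀ b, P.line b = none ∨ P.line b = some 0) (p : G.PairPoly) :
    G.evP G.one P p ∈ X.serIn L := by
  induction p using MvPolynomial.induction_on with
  | C a =>
    rw [← MvPolynomial.algebraMap_eq, AlgHom.commutes]
    intro n
    rw [X.algebraMap_eq_C, HahnSeries.C_apply, HahnSeries.coeff_single]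
    split
    · exact L.algebraMap_mem _
    · exact zero_mem _
  | add a b ha hb => rw [map_add]; exact add_mem ha hb
  | mul_X a v ha =>
    rw [map_mul, evP, MvPolynomial.aeval_X]
    exact mul_mem ha (G.gs_mem_serIn L (hP _) _)

/-- The exponent of a component. -/
def ramExp (q : ℕ) : Option Bool → ℕ
  | none => q - 1
  | some _ => 1

theorem zero_le_ord_of_mem {κ : Option Bool} {z : G.splitField} (hz : z ≠ 0) (hV : z ∈ G.V κ) :
    0 ≤ G.ord κ z := by
  by_contra! h
  have h1 := G.ord_inv κ hz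
  have hi : z⁻¹ ∈ G.V κ := G.mem_V.mpr
    (X.mem_gaussRing_of_nonneg (G.hasOrd_ord κ (inv_ne_zero hz)) (by omega))
  have h0 : G.red κ z⁻¹ = 0 := by
    by_contra h0
    rw [G.red_eq hi, G.resV_apply] at h0
    have := (X.hasOrd_zero_iff (G.hasOrd_ord κ (inv_ne_zero hz))).mpr ⟨_, h0⟩
    omega
  have h2 := G.red_mul hV hi
  rw [mul_inv_cancel₀ hz, G.red_one, h0, mul_zero] at h2
  exact one_ne_zero h2

/-- **Vanishing residues give divisibility by `q`.** -/
theorem factorial_le_mul_ord {κ : Option Bool} {z : G.splitField} (hz : z ≠ 0) (hV : z ∈ G.V κ)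
    (h0 : G.red κ z = 0) : (q.factorial : ℤ) ≤ ramExp q κ * G.ord κ z := by
  have hpos : 0 < G.ord κ z := by
    refine lt_of_le_of_ne (G.zero_le_ord_of_mem hz hV) fun h => ?_
    obtain ⟨_, _, h1⟩ := G.unit_V_of_ord_eq_zero hz h.symm
    exact h1 ((G.red_eq hV).symm.trans h0)
  obtain ⟨a, b, hb, hab⟩ := G.exists_rep z.2
  have e := G.emb_spec G.one (kindPair κ) z hb hab
  rcases κ with _ | c
  · exact (G.hasOrd_ord none hz).factorial_le_mul hpos le_rfl X.valBound_L₁
      ⟨_, (G.evP_mem_goodSer G.one _ a).1⟩ ⟨_, (G.evP_mem_goodSer G.one _ b).1⟩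
      (G.evP_mem_goodSer G.one _ a).2 (G.evP_mem_goodSer G.one _ b).2
      (G.evP_ne_zero G.one _ hb) e
  · have hP : ∀ b', (kindPair (q := q) (some c)).line b' = none ∨
        (kindPair (q := q) (some c)).line b' = some 0 := by
      intro b'; cases c <;> cases b' <;> simp [kindPair, Pair.line, Pair.base]
    exact (G.hasOrd_ord (some c) hz).factorial_le_mul hpos bot_le X.valBound_bot
      ⟨_, (G.evP_mem_goodSer G.one _ a).1⟩ ⟨_, (G.evP_mem_goodSer G.one _ b).1⟩
      (G.evP_mem_serIn ⊥ hP a) (G.evP_mem_serIn ⊥ hP b) (G.evP_ne_zero G.one _ hb) e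

theorem mem_V_of_ord_nonneg {κ : Option Bool} {z : G.splitField} (hz : z ≠ 0)
    (h : 0 ≤ G.ord κ z) : z ∈ G.V κ :=
  G.mem_V.mpr (X.mem_gaussRing_of_nonneg (G.hasOrd_ord κ hz) h)

omit [NeZero q] [Fact (Nat.Prime q)] in
theorem q_ne_zero_split : (q : G.splitField) ≠ 0 := Nat.cast_ne_zero.mpr X.prime.ne_zero

/-- A product of `r` functions with vanishing residues at a component is divisible by `q` there,
`r` the exponent of the component. -/
theorem prod_div_q_mem_V {κ : Option Bool} {ι : Type*} (s : Finset ι) (hs : ramExp q κ ≤ s.card)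
    {z : ι → G.splitField} (hV : ∀ i ∈ s, z i ∈ G.V κ) (h0 : ∀ i ∈ s, G.red κ (z i) = 0) :
    (∏ i ∈ s, z i) / (q : G.splitField) ∈ G.V κ := by
  classical
  by_cases hp : ∏ i ∈ s, z i = 0
  · rw [hp, zero_div]; exact zero_mem _
  have hne : ∀ i ∈ s, z i ≠ 0 := Finset.prod_ne_zero_iff.mp hp
  have hord : ∀ t : Finset ι, (∀ i ∈ t, z i ≠ 0) →
      G.ord κ (∏ i ∈ t, z i) = ∑ i ∈ t, G.ord κ (z i) := by
    intro t
    induction t using Finset.induction_on with
    | empty => intro _; simpa using G.ord_one κ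
    | insert x t hx ih =>
      intro ht
      rw [Finset.prod_insert hx, Finset.sum_insert hx,
        G.ord_mul κ (ht x (Finset.mem_insert_self x t))
          (Finset.prod_ne_zero_iff.mpr fun i hi => ht i (Finset.mem_insert_of_mem hi)),
        ih fun i hi => ht i (Finset.mem_insert_of_mem hi)]
  refine G.mem_V_of_ord_nonneg (div_ne_zero hp G.q_ne_zero_split) ?_
  rw [div_eq_mul_inv, G.ord_mul κ hp (inv_ne_zero G.q_ne_zero_split),
    G.ord_inv κ G.q_ne_zero_split, G.ord_natCast, hord s hne]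
  have hr : (0 : ℤ) < ramExp q κ := by
    have := X.prime.two_le
    rcases κ with _ | c <;> simp [ramExp]
    omega
  have h1 : ∀ i ∈ s, (q.factorial : ℤ) ≤ ramExp q κ * G.ord κ (z i) := fun i hi =>
    G.factorial_le_mul_ord (hne i hi) (hV i hi) (h0 i hi)
  have h2 : (s.card : ℤ) * q.factorial ≤ ramExp q κ * ∑ i ∈ s, G.ord κ (z i) := by
    rw [Finset.mul_sum]
    have := Finset.card_nsmul_le_sum s (fun i => (ramExp q κ : ℤ) * G.ord κ (z i)) _ h1
    rwa [nsmul_eq_mul] at this
  have h3 : (ramExp q κ : ℤ) * q.factorial ≤ (s.card : ℤ) * q.factorial :=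
    mul_le_mul_of_nonneg_right (by exact_mod_cast hs) (Int.natCast_nonneg _)
  have h4 : (q.factorial : ℤ) ≤ ∑ i ∈ s, G.ord κ (z i) :=
    le_of_mul_le_mul_left (h3.trans h2) hr
  omega

omit [NeZero q] in
theorem ramExp_le (κ : Option Bool) : ramExp q κ ≤ q - 1 := by
  have := (Fact.out : q.Prime).two_le
  rcases κ with _ | c <;> simp [ramExp]
  omega

theorem pow_div_q_mem_V {κ : Option Bool} {n : ℕ} (hn : ramExp q κ ≤ n) {z : G.splitField}
    (hV : z ∈ G.V κ) (h0 : G.red κ z = 0) : z ^ n / (q : G.splitField) ∈ G.V κ := by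
  have := G.prod_div_q_mem_V (κ := κ) (Finset.range n) (by rwa [Finset.card_range])
    (z := fun _ => z) (fun _ _ => hV) (fun _ _ => h0)
  rwa [Finset.prod_const, Finset.card_range] at this

/-- Divisibility by `q` in the open chart. -/
theorem div_q_mem_openChart {z : G.splitField} (hz : z ∈ G.openChart)
    (h : ∀ κ, z / (q : G.splitField) ∈ G.V κ) : z / (q : G.splitField) ∈ G.openChart := by
  refine G.mem_openChart_of_q_pow_mul 1 ?_ h
  rwa [pow_one, mul_div_cancel₀ _ G.q_ne_zero_split]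

variable {G}

omit [Fact (Nat.Prime q)] [NeZero q] in
theorem Point.φ_natCast_q (P : G.Point G.openChart) : P.φ (q : G.openChart) = 0 := by
  rw [map_natCast, X.natCast_k]

/-- A function of the chart all of whose residues vanish, vanishes at the point. -/
theorem Point.eq_zero_of_oRed (P : G.Point G.openChart) {z : G.openChart}
    (h : ∀ κ, G.oRed κ z = 0) : P.φ z = 0 := by
  have hw := G.div_q_mem_openChart (pow_mem z.2 (q - 1)) fun κ =>
    G.pow_div_q_mem_V (ramExp_le κ) (G.openChart_le_V κ z.2)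
      ((G.oRed_apply κ z).symm.trans (h κ))
  have e : z ^ (q - 1) = (q : G.openChart) * ⟨_, hw⟩ := Subtype.ext (by
    push_cast
    rw [mul_div_cancel₀ _ G.q_ne_zero_split])
  have h1 := congrArg P.φ e
  rw [map_pow, map_mul, P.φ_natCast_q, zero_mul] at h1
  exact eq_zero_of_pow_eq_zero h1

/-- The separating functions as elements of the chart. -/
abbrev sepO (G : Model X M₁) (κ : Option Bool) : G.openChart :=
  ⟨G.sepFun κ, G.sepFun_mem_openChart κ⟩

theorem oRed_sepO (κ κ' : Option Bool) :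
    G.oRed κ' (G.sepO κ) = if κ' = κ then G.hasseRes else 0 := by
  rw [G.oRed_apply]; exact G.red_sepFun κ κ'

/-- At an ordinary point some separating function does not vanish. -/
theorem Point.exists_sep (P : G.Point G.openChart) (hP : ¬ G.Supersingular P) :
    ∃ κ₀, P.φ (G.sepO κ₀) ≠ 0 := by
  by_contra! h
  refine hP fun z hz => ?_
  have e : z = ∑ κ, G.sepO κ := Subtype.ext (by
    show (z : G.splitField) = G.openChart.subtype (∑ κ, G.sepO κ)
    rw [map_sum, hz, ← G.sum_sepFun]
    rfl)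
  rw [e, map_sum]
  exact Finset.sum_eq_zero fun κ _ => h κ

variable (P : G.Point G.openChart) {κ₀ : Option Bool} (hκ : P.φ (G.sepO κ₀) ≠ 0)

include hκ in
/-- The point factors through the residue at its component. -/
theorem Point.eq_zero_of_red {z : G.openChart} (h : G.oRed κ₀ z = 0) : P.φ z = 0 := by
  have h1 : P.φ (z * G.sepO κ₀) = 0 := P.eq_zero_of_oRed fun κ => by
    rw [map_mul, oRed_sepO]
    rcases eq_or_ne κ κ₀ with rfl | hne
    · rw [h, zero_mul]
    · rw [if_neg hne, mul_zero]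
  rw [map_mul] at h1
  exact (mul_eq_zero.mp h1).resolve_right hκ

include hκ in
theorem Point.eq_of_red {z w : G.openChart} (h : G.oRed κ₀ z = G.oRed κ₀ w) : P.φ z = P.φ w := by
  rw [← sub_eq_zero, ← map_sub]
  exact P.eq_zero_of_red hκ (by rw [map_sub, h, sub_self])

end Model

end FLTAgent.CarayolSquare
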