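import Fermat.Agent.CarayolSquare.Ordinary.ResidueField
import Mathlib.RingTheory.Adjoin.FG
import Mathlib.RingTheory.Polynomial.ScaleRoots
import Fermat.Agent.FFBasic.AdjoinFrac

/-!
# The residue ring at an ordinary point

At an ordinary point the residues of the open chart at the component are, locally, fractions of
residues of base functions and translates, and the translate of `h` minus a constant generates the
maximal ideal (`exists_local_eq`, `exists_mul_unif`).
-/

set_option autoImplicit false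

noncomputable section

open ModularCurve Polynomial

namespace FLTAgent.CarayolSquare

attribute [local instance high] RingHom.instRingHomClass RingHomClass.toAddMonoidHomClass
  AddMonoidHomClass.toAddHomClass AlgHomClass.toRingHomClass RingHomClass.toMonoidHomClass
  MonoidHomClass.toMulHomClass

variable {q : ℕ} [NeZero q] [Fact q.Prime]

namespace Model

variable {X : Ctx q} {M₁ : ℕ} [NeZero M₁] (G : Model X M₁)

omit [NeZero q] [Fact (Nat.Prime q)] in
/-- At a value of `h` outside the roots, `C` modulo `q` and `h - c` is reduced, hence regular. -/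
theorem exists_unram_mul (θ : G.C →+* X.k) (hθ : ∀ a : X.O, θ (algebraMap X.O G.C a) = X.resK a)
    (c : X.O) (hc : θ G.h = X.resK c) {z : G.C} (hz : θ z = 0) :
    ∃ s : G.C, θ s ≠ 0 ∧ s * z ∈ Ideal.span {(q : G.C), G.h - algebraMap X.O G.C c} := by
  classical
  set I : Ideal G.C := Ideal.span {(q : G.C), G.h - algebraMap X.O G.C c} with hI
  have hne : ∀ a ∈ G.roots, X.resK (c - a) ≠ 0 := fun a ha h0 => by
    have h1 := congrArg θ G.Dinv_mul
    rw [map_mul, map_prod, map_one, Finset.prod_eq_zero ha (by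
      rw [map_sub, hθ, hc, ← map_sub, h0]), mul_zero] at h1
    exact zero_ne_one h1
  have hunit : ∀ a ∈ G.roots, IsUnit (c - a) := fun a ha => X.isUnit_of_resK (hne a ha)
  have hh : Ideal.Quotient.mk I G.h = algebraMap X.O (G.C ⧸ I) c :=
    Ideal.Quotient.eq.mpr (Ideal.subset_span (Or.inr rfl))
  obtain ⟨e, he⟩ := (IsUnit.prod_iff.mpr hunit).exists_right_inv
  have hD : Ideal.Quotient.mk I G.Dinv = algebraMap X.O (G.C ⧸ I) e := by
    have h1 := congrArg (Ideal.Quotient.mk I) G.Dinv_mul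
    simp only [map_mul, map_prod, map_one, map_sub, hh, Ideal.Quotient.mk_algebraMap] at h1
    have h2 := congrArg (algebraMap X.O (G.C ⧸ I)) he
    simp only [map_mul, map_prod, map_one, map_sub] at h2
    linear_combination (algebraMap X.O (G.C ⧸ I) e) * h1 - (Ideal.Quotient.mk I G.Dinv) * h2
  let inc : G.hRing →+* G.C := (Subalgebra.inclusion G.hRing_le_C).toRingHom
  have hconst : ∀ (x : Ser) (hx : x ∈ G.hRing),
      ∃ a : X.O, Ideal.Quotient.mk I (inc ⟨x, hx⟩) = algebraMap X.O (G.C ⧸ I) a := by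
    intro x hx
    induction hx using Algebra.adjoin_induction with
    | mem x hx =>
      rcases hx with rfl | hx
      · exact ⟨c, hh⟩
      · obtain rfl := Set.mem_singleton_iff.mp hx
        exact ⟨e, hD⟩
    | algebraMap r => exact ⟨r, Ideal.Quotient.mk_algebraMap _ _ r⟩
    | add x y hx hy hx' hy' =>
      obtain ⟨u, hu⟩ := hx'
      obtain ⟨v, hv⟩ := hy'
      exact ⟨u + v, by rw [map_add, ← hu, ← hv, ← map_add]; rfl⟩
    | mul x y hx hy hx' hy' =>
      obtain ⟨u, hu⟩ := hx'
      obtain ⟨v, hv⟩ := hy'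
      exact ⟨u * v, by rw [map_mul, ← hu, ← hv, ← map_mul]; rfl⟩
  obtain ⟨Q₀, hQ₀, hQ₀z⟩ := G.isIntegral_hRing z
  have h1 : eval₂ inc z Q₀ = 0 := Subtype.ext (by
    show G.C.val.toRingHom (eval₂ inc z Q₀) = 0
    rw [hom_eval₂]
    exact hQ₀z)
  have : Nontrivial (G.C ⧸ I) := Ideal.Quotient.nontrivial_iff.mpr fun htop => by
    have h2 : I ≤ RingHom.ker θ := by
      rw [hI, Ideal.span_le]
      rintro x (rfl | rfl)
      · show θ (q : G.C) = 0
        rw [map_natCast, X.natCast_k]
      · show θ (G.h - algebraMap X.O G.C c) = 0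
        rw [map_sub, hθ, hc, sub_self]
    have h3 : θ 1 = 0 := h2 (htop ▸ Submodule.mem_top)
    rw [map_one] at h3
    exact one_ne_zero h3
  obtain ⟨Q, hQ, -, hQm⟩ := lifts_and_degree_eq_and_monic (f := algebraMap X.O (G.C ⧸ I))
    (p := Q₀.map ((Ideal.Quotient.mk I).comp inc)) ((lifts_iff_coeff_lifts _).mpr fun n => by
      rw [coeff_map]
      obtain ⟨a, ha⟩ := hconst _ (Q₀.coeff n).2
      exact ⟨a, ha.symm⟩) (hQ₀.map _)
  have hQI : aeval z Q ∈ I := by
    rw [← Ideal.Quotient.eq_zero_iff_mem, aeval_def, hom_eval₂,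
      show (Ideal.Quotient.mk I).comp (algebraMap X.O G.C) = algebraMap X.O (G.C ⧸ I) from rfl,
      ← eval_map, hQ, eval_map, ← hom_eval₂, h1, map_zero]
  have hQ0 : Q.map X.resK ≠ 0 := (hQm.map _).ne_zero
  obtain ⟨R, hR, hRd⟩ := exists_eq_pow_rootMultiplicity_mul_and_not_dvd (Q.map X.resK) hQ0 0
  obtain ⟨P', hP'⟩ := map_surjective X.resK X.resK_surjective R
  set n := rootMultiplicity 0 (Q.map X.resK)
  obtain ⟨T, hT⟩ : Polynomial.C (q : X.O) ∣ Q - Polynomial.X ^ n * P' := by
    rw [C_dvd_iff_dvd_coeff]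
    intro i
    have h0 : (Q - Polynomial.X ^ n * P').map X.resK = 0 := by
      rw [Polynomial.map_sub, Polynomial.map_mul, Polynomial.map_pow, map_X, hP']
      nth_rw 1 [hR]
      simp
    obtain ⟨d, hd⟩ := (X.resK_eq_zero_iff ((Q - Polynomial.X ^ n * P').coeff i)).mp (by
      rw [← coeff_map, h0, coeff_zero])
    exact ⟨d, hd⟩
  have hzs : z ^ n * aeval z P' ∈ I := by
    have e1 : z ^ n * aeval z P' = aeval z Q - (q : G.C) * aeval z T := by
      rw [show (q : G.C) = aeval z (Polynomial.C (q : X.O)) by rw [aeval_C, map_natCast],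
        ← map_mul, ← hT, map_sub, map_mul, map_pow, aeval_X]
      ring
    rw [e1]
    exact sub_mem hQI (Ideal.mul_mem_right _ _ (Ideal.subset_span (Or.inl rfl)))
  refine ⟨aeval z P', ?_, G.unram c hunit _ fun χ hχq hχh => ?_⟩
  · rw [aeval_def, hom_eval₂, show θ.comp (algebraMap X.O G.C) = X.resK from RingHom.ext hθ,
      ← eval_map, hP', hz, ← coeff_zero_eq_eval_zero]
    intro h0
    exact hRd (by rw [map_zero, sub_zero]; exact X_dvd_iff.mpr h0)
  · have hle : I ≤ RingHom.ker χ := by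
      rw [hI, Ideal.span_le]
      rintro x (rfl | rfl)
      · exact hχq
      · exact hχh
    have h2 : χ (z ^ n * aeval z P') = 0 := hle hzs
    rw [map_mul, map_pow, mul_eq_zero] at h2
    rw [map_mul]
    rcases h2 with h2 | h2
    · rw [eq_zero_of_pow_eq_zero h2, mul_zero]
    · rw [h2, zero_mul]

/-- Base functions and translates along a line. -/
def genRing (b : Bool) : Subalgebra X.O G.splitField :=
  G.baseHom.range ⊔ (G.pullHom b).range

theorem genRing_le (b : Bool) : (G.genRing b).toSubring ≤ G.openChart := by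
  intro x hx
  have hle : G.genRing b ≤
      ({ G.openChart.toSubsemiring with algebraMap_mem' := G.algebraMap_mem_openChart } :
        Subalgebra X.O G.splitField) := by
    refine sup_le ?_ ?_
    · rintro _ ⟨c, rfl⟩; exact G.baseHom_mem_openChart c
    · rintro _ ⟨c, rfl⟩; exact G.pullHom_mem_openChart b c
  exact hle hx

omit [NeZero q] [Fact (Nat.Prime q)] in
theorem C_top_fg : (⊤ : Subalgebra X.O G.C).FG := by
  classical
  obtain ⟨T, hT⟩ := G.exists_generators
  refine ⟨T ∪ {G.h, G.Dinv}, top_le_iff.mp fun c _ => ?_⟩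
  obtain ⟨a, ha, rfl⟩ := hT c
  refine sum_mem fun t ht => mul_mem ?_ (Algebra.subset_adjoin (by simp [ht]))
  have h1 : a t ∈ Algebra.adjoin X.O ({G.h, G.Dinv} : Set G.C) := by
    have h2 : (a t : Ser) ∈ (Algebra.adjoin X.O ({G.h, G.Dinv} : Set G.C)).map G.C.val := by
      rw [AlgHom.map_adjoin, Set.image_pair]
      exact ha t
    obtain ⟨a', ha', e⟩ := h2
    exact (Subtype.ext e : a' = a t) ▸ ha'
  exact Algebra.adjoin_mono (by intro x hx; rcases hx with rfl | rfl <;> simp) h1

omit [Fact (Nat.Prime q)] [NeZero q] in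
theorem isNoetherian_genRing (b : Bool) : IsNoetherianRing (G.genRing b) := by
  have := X.dvr
  refine isNoetherianRing_of_fg ?_
  refine Subalgebra.FG.sup ?_ ?_ <;> rw [← Algebra.map_top] <;> exact G.C_top_fg.map _

variable {G}
variable (P : G.Point G.openChart) (κ₀ : Option Bool) (b : Bool)

/-- The inclusion in the chart. -/
def genIncl (G : Model X M₁) (b : Bool) : G.genRing b →+* G.openChart :=
  Subring.inclusion (G.genRing_le b)

/-- Base functions in `genRing`. -/
def genBase (G : Model X M₁) (b : Bool) : G.C →ₐ[X.O] G.genRing b :=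
  G.baseHom.codRestrict _ fun c =>
    (le_sup_left : G.baseHom.range ≤ G.genRing b) ⟨c, rfl⟩

/-- Translates in `genRing`. -/
def genPull (G : Model X M₁) (b : Bool) : G.C →ₐ[X.O] G.genRing b :=
  (G.pullHom b).codRestrict _ fun c =>
    (le_sup_right : (G.pullHom b).range ≤ G.genRing b) ⟨c, rfl⟩

/-- The value at the point. -/
def Point.genVal : G.genRing b →+* X.k := P.φ.comp (G.genIncl b)

/-- The residue at the component. -/
def genRed (G : Model X M₁) (κ₀ : Option Bool) (b : Bool) : G.genRing b →+* LaurentSeries X.k :=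
  (G.oRed κ₀).comp (G.genIncl b)

theorem Point.genVal_algebraMap (a : X.O) : P.genVal b (algebraMap X.O (G.genRing b) a) =
    X.resK a :=
  P.const a _ rfl

theorem genRed_algebraMap (a : X.O) :
    G.genRed κ₀ b (algebraMap X.O (G.genRing b) a) = HahnSeries.C (X.resK a) :=
  (G.oRed_apply κ₀ _).trans (G.red_algebraMap κ₀ a)

theorem genRed_genBase (c : G.C) : G.genRed κ₀ b (G.genBase b c) = qExpand X.k q (G.redC c) :=
  (G.oRed_apply κ₀ _).trans (G.red_baseHom_qExpand κ₀ c)

variable {κ₀ b} (hκ : P.φ (G.sepO κ₀) ≠ 0) (hb : κ₀ ≠ some b)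

include hb in
theorem genRed_genPull (c : G.C) : G.genRed κ₀ b (G.genPull b c) = G.redC c :=
  (G.oRed_apply κ₀ _).trans (G.red_pullHom hb c)

include hκ in
theorem Point.genVal_eq_zero {g : G.genRing b} (h : G.genRed κ₀ b g = 0) : P.genVal b g = 0 :=
  P.eq_zero_of_red hκ h

include hκ in
theorem Point.genVal_eq {g g' : G.genRing b} (h : G.genRed κ₀ b g = G.genRed κ₀ b g') :
    P.genVal b g = P.genVal b g' :=
  P.eq_of_red hκ h

variable (c' : X.O) (hc' : P.genVal b (G.genPull b G.h) = X.resK c')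

/-- The uniformiser. -/
def unif (G : Model X M₁) (b : Bool) (c' : X.O) : G.genRing b :=
  G.genPull b G.h - algebraMap X.O (G.genRing b) c'

include hc' in
theorem Point.genVal_unif : P.genVal b (G.unif b c') = 0 := by
  rw [unif, map_sub, hc', P.genVal_algebraMap, sub_self]

include hb in
theorem genRed_unif : G.genRed κ₀ b (G.unif b c') = G.hbar - HahnSeries.C (X.resK c') := by
  rw [unif, map_sub, genRed_genPull hb, genRed_algebraMap]
  rfl

include hb in
theorem genRed_unif_ne_zero : G.genRed κ₀ b (G.unif b c') ≠ 0 := by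
  rw [genRed_unif hb, sub_ne_zero]
  exact G.redS_hSer_ne_const _

include hκ hb hc' in
/-- The maximal ideal of the residues at the point is generated by the uniformiser. -/
theorem exists_unif_dvd {g : G.genRing b} (hg : P.genVal b g = 0) :
    ∃ s g' : G.genRing b, P.genVal b s ≠ 0 ∧
      G.genRed κ₀ b (s * g) = G.genRed κ₀ b (G.unif b c' * g') := by
  set Y := G.unif b c' with hY
  let Good : G.genRing b → Prop := fun g => ∃ (a : X.O) (s g' : G.genRing b), P.genVal b s ≠ 0 ∧
    G.genRed κ₀ b (s * (g - algebraMap X.O (G.genRing b) a)) = G.genRed κ₀ b (Y * g')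
  have hqR : ∀ x : G.genRing b, G.genRed κ₀ b ((q : G.genRing b) * x) = 0 := fun x => by
    rw [map_mul, map_natCast, ← map_natCast (HahnSeries.C : X.k →+* LaurentSeries X.k), X.natCast_k,
      map_zero, zero_mul]
  have hbase : ∀ x : G.C, Good (G.genBase b x) := by
    intro x
    obtain ⟨a, ha⟩ := X.resK_surjective (P.genVal b (G.genBase b x))
    have hθh : P.genVal b (G.genBase b G.h) = X.resK (c' ^ q) := by
      rw [map_pow, ← hc', ← map_pow]
      refine P.genVal_eq hκ ?_
      rw [map_pow, genRed_genBase, genRed_genPull hb]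
      exact G.hbar_pow.symm
    obtain ⟨s, hs, hsI⟩ := G.exists_unram_mul ((P.genVal b).comp (G.genBase b).toRingHom)
      (fun r => by
        show P.genVal b (G.genBase b (algebraMap X.O G.C r)) = _
        rw [AlgHom.commutes, P.genVal_algebraMap]) (c' ^ q) hθh
      (z := x - algebraMap X.O G.C a) (by
        show P.genVal b (G.genBase b (x - algebraMap X.O G.C a)) = 0
        rw [map_sub, AlgHom.commutes, map_sub, P.genVal_algebraMap, ha, sub_self])
    obtain ⟨u, v, huv⟩ := Ideal.mem_span_pair.mp hsI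
    refine ⟨a, G.genBase b s, Y ^ (q - 1) * G.genBase b v, hs, ?_⟩
    have h1 := congrArg (G.genBase b) huv
    simp only [map_add, map_mul, map_natCast, map_sub, AlgHom.commutes] at h1
    rw [← h1, map_add, mul_comm _ (q : G.genRing b), hqR, zero_add, map_mul, ← mul_assoc,
      ← pow_succ', Nat.sub_add_cancel (NeZero.one_le : 1 ≤ q)]
    simp only [map_mul, map_sub, map_pow, genRed_algebraMap, genRed_genBase]
    rw [hY, genRed_unif hb, show qExpand X.k q (G.redC G.h) = G.hbar ^ q from G.hbar_pow.symm]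
    have := X.charP_serk
    have : ExpChar (LaurentSeries X.k) q := ExpChar.prime X.prime
    rw [sub_pow_expChar]
    ring
  have hpull : ∀ x : G.C, Good (G.genPull b x) := by
    intro x
    obtain ⟨a, ha⟩ := X.resK_surjective (P.genVal b (G.genPull b x))
    obtain ⟨s, hs, hsI⟩ := G.exists_unram_mul ((P.genVal b).comp (G.genPull b).toRingHom)
      (fun r => by
        show P.genVal b (G.genPull b (algebraMap X.O G.C r)) = _
        rw [AlgHom.commutes, P.genVal_algebraMap]) c' hc'
      (z := x - algebraMap X.O G.C a) (by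
        show P.genVal b (G.genPull b (x - algebraMap X.O G.C a)) = 0
        rw [map_sub, AlgHom.commutes, map_sub, P.genVal_algebraMap, ha, sub_self])
    obtain ⟨u, v, huv⟩ := Ideal.mem_span_pair.mp hsI
    refine ⟨a, G.genPull b s, G.genPull b v, hs, ?_⟩
    have h1 := congrArg (G.genPull b) huv
    simp only [map_add, map_mul, map_natCast, map_sub, AlgHom.commutes] at h1
    rw [← h1, map_add, mul_comm _ (q : G.genRing b), hqR, zero_add, hY, unif, mul_comm]
  have hadd : ∀ g₁ g₂, Good g₁ → Good g₂ → Good (g₁ + g₂) := by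
    rintro g₁ g₂ ⟨a₁, s₁, t₁, hs₁, h₁⟩ ⟨a₂, s₂, t₂, hs₂, h₂⟩
    refine ⟨a₁ + a₂, s₁ * s₂, s₂ * t₁ + s₁ * t₂, by rw [map_mul]; exact mul_ne_zero hs₁ hs₂, ?_⟩
    simp only [map_add, map_sub, map_mul] at h₁ h₂ ⊢
    linear_combination (G.genRed κ₀ b s₂) * h₁ + (G.genRed κ₀ b s₁) * h₂
  have hmul : ∀ g₁ g₂, Good g₁ → Good g₂ → Good (g₁ * g₂) := by
    rintro g₁ g₂ ⟨a₁, s₁, t₁, hs₁, h₁⟩ ⟨a₂, s₂, t₂, hs₂, h₂⟩
    refine ⟨a₁ * a₂, s₁ * s₂, s₂ * g₂ * t₁ + algebraMap X.O (G.genRing b) a₁ * s₁ * t₂,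
      by rw [map_mul]; exact mul_ne_zero hs₁ hs₂, ?_⟩
    simp only [map_add, map_sub, map_mul] at h₁ h₂ ⊢
    linear_combination (G.genRed κ₀ b s₂ * G.genRed κ₀ b g₂) * h₁ +
      (G.genRed κ₀ b (algebraMap X.O (G.genRing b) a₁) * G.genRed κ₀ b s₁) * h₂
  have hgen : Algebra.adjoin X.O (Set.range (G.genBase b) ∪ Set.range (G.genPull b)) = ⊤ := by
    refine Subalgebra.map_injective (f := (G.genRing b).val) Subtype.val_injective ?_
    rw [AlgHom.map_adjoin, Algebra.map_top, Set.image_union, ← Set.range_comp, ← Set.range_comp,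
      Subalgebra.range_val, Algebra.adjoin_union,
      show ((G.genRing b).val : G.genRing b → G.splitField) ∘ G.genBase b = G.baseHom from rfl,
      show ((G.genRing b).val : G.genRing b → G.splitField) ∘ G.genPull b = G.pullHom b from rfl,
      ← AlgHom.coe_range, ← AlgHom.coe_range, Algebra.adjoin_eq, Algebra.adjoin_eq]
    rfl
  have hall : ∀ g, Good g := fun g => by
    have hx : g ∈ Algebra.adjoin X.O (Set.range (G.genBase b) ∪ Set.range (G.genPull b)) :=
      hgen ▸ Algebra.mem_top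
    clear hg
    induction hx using Algebra.adjoin_induction with
    | mem x hx =>
      rcases hx with ⟨a, rfl⟩ | ⟨a, rfl⟩
      · exact hbase a
      · exact hpull a
    | algebraMap r => exact ⟨r, 1, 0, by rw [map_one]; exact one_ne_zero,
        by rw [sub_self, mul_zero, mul_zero]⟩
    | add x y _ _ ihx ihy => exact hadd _ _ ihx ihy
    | mul x y _ _ ihx ihy => exact hmul _ _ ihx ihy
  obtain ⟨a, s, t, hs, h⟩ := hall g
  have h2 := P.genVal_eq hκ h
  rw [map_mul, map_sub, hg, zero_sub, P.genVal_algebraMap, map_mul, hY, P.genVal_unif c' hc',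
    zero_mul, mul_eq_zero, neg_eq_zero] at h2
  have ha : X.resK a = 0 := h2.resolve_left hs
  refine ⟨s, t, hs, ?_⟩
  rw [map_mul, map_sub, genRed_algebraMap, ha, map_zero, sub_zero, ← map_mul] at h
  exact h

include hκ hb hc' in
/-- Nonzero residues are powers of the uniformiser up to units. -/
theorem exists_unif_pow {r : G.genRing b} (hr : G.genRed κ₀ b r ≠ 0) :
    ∃ (n : ℕ) (s u : G.genRing b), P.genVal b s ≠ 0 ∧ P.genVal b u ≠ 0 ∧
      G.genRed κ₀ b (s * r) = G.genRed κ₀ b (G.unif b c' ^ n * u) := by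
  classical
  have := G.isNoetherian_genRing b
  set Y := G.unif b c'
  let J : G.genRing b → Ideal (G.genRing b) := fun r =>
    { carrier := {t | ∃ s a, P.genVal b s ≠ 0 ∧ G.genRed κ₀ b (s * t) = G.genRed κ₀ b (a * r)}
      zero_mem' := ⟨1, 0, by rw [map_one]; exact one_ne_zero, by simp⟩
      add_mem' := by
        rintro t₁ t₂ ⟨s₁, a₁, hs₁, h₁⟩ ⟨s₂, a₂, hs₂, h₂⟩
        refine ⟨s₁ * s₂, s₂ * a₁ + s₁ * a₂, by rw [map_mul]; exact mul_ne_zero hs₁ hs₂, ?_⟩
        simp only [map_add, map_mul] at h₁ h₂ ⊢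
        linear_combination (G.genRed κ₀ b s₂) * h₁ + (G.genRed κ₀ b s₁) * h₂
      smul_mem' := by
        rintro x t ⟨s, a, hs, h⟩
        refine ⟨s, x * a, hs, ?_⟩
        simp only [smul_eq_mul, map_mul] at h ⊢
        linear_combination (G.genRed κ₀ b x) * h }
  let Bad : G.genRing b → Prop := fun r => G.genRed κ₀ b r ≠ 0 ∧
    ¬ ∃ (n : ℕ) (s u : G.genRing b), P.genVal b s ≠ 0 ∧ P.genVal b u ≠ 0 ∧
      G.genRed κ₀ b (s * r) = G.genRed κ₀ b (Y ^ n * u)
  by_contra hbad
  obtain ⟨M, ⟨r₀, ⟨hr₀, hnot⟩, rfl⟩, hmax⟩ :=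
    set_has_maximal_iff_noetherian.mpr inferInstance (J '' {r | Bad r})
      ⟨J r, r, ⟨hr, hbad⟩, rfl⟩
  have hr0 : P.genVal b r₀ = 0 := by
    by_contra h
    exact hnot ⟨0, 1, r₀, by rw [map_one]; exact one_ne_zero, h, by rw [one_mul, pow_zero, one_mul]⟩
  obtain ⟨s, r₁, hs, h⟩ := exists_unif_dvd P hκ hb c' hc' hr0
  have hsR : G.genRed κ₀ b s ≠ 0 := fun h0 => hs (P.genVal_eq_zero hκ h0)
  have hr₁ : G.genRed κ₀ b r₁ ≠ 0 := by
    intro h0
    rw [map_mul, map_mul, h0, mul_zero, mul_eq_zero] at h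
    exact h.elim hsR hr₀
  have hbad₁ : Bad r₁ := by
    refine ⟨hr₁, ?_⟩
    rintro ⟨n, s', u, hs', hu, h'⟩
    refine hnot ⟨n + 1, s' * s, u, by rw [map_mul]; exact mul_ne_zero hs' hs, hu, ?_⟩
    simp only [map_mul, map_pow, pow_succ] at h h' ⊢
    linear_combination (G.genRed κ₀ b s') * h + (G.genRed κ₀ b Y) * h'
  refine hmax (J r₁) ⟨r₁, hbad₁, rfl⟩ (SetLike.lt_iff_le_and_exists.mpr ⟨?_, r₁, ?_, ?_⟩)
  · rintro t ⟨σ, a, hσ, ht⟩
    refine ⟨σ * s, a * Y, by rw [map_mul]; exact mul_ne_zero hσ hs, ?_⟩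
    simp only [map_mul] at h ht ⊢
    linear_combination (G.genRed κ₀ b s) * ht + (G.genRed κ₀ b a) * h
  · exact ⟨1, 1, by rw [map_one]; exact one_ne_zero, rfl⟩
  · rintro ⟨σ, a, hσ, ht⟩
    have h1 : G.genRed κ₀ b (s * σ) = G.genRed κ₀ b (a * Y) := by
      refine mul_right_cancel₀ hr₁ ?_
      simp only [map_mul] at h ht ⊢
      linear_combination (G.genRed κ₀ b s) * ht + (G.genRed κ₀ b a) * h
    have h2 := P.genVal_eq hκ h1
    rw [map_mul, map_mul, P.genVal_unif c' hc', mul_zero] at h2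
    exact mul_ne_zero hs hσ h2

include hb in
/-- Residues of one line are fractions of residues from `genRing`. -/
theorem exists_frac_of_resField {r : LaurentSeries X.k} (hr : r ∈ G.resField) :
    ∃ g d : G.genRing b, G.genRed κ₀ b d ≠ 0 ∧ r * G.genRed κ₀ b d = G.genRed κ₀ b g := by
  refine FFBasic.exists_mul_eq_of_mem_closure (G.genRed κ₀ b)
    (fun x hx => ?_) hr
  rcases hx with rfl | hx
  · exact ⟨G.genPull b G.h, 1, by rw [map_one]; exact one_ne_zero,
      by rw [map_one, mul_one]; exact (genRed_genPull hb _).symm⟩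
  · obtain ⟨a, d, hd, e⟩ := InBase.exists_eq_qExpand (G := G) hx
    refine ⟨G.genBase b a, G.genBase b d, ?_, ?_⟩
    · rw [genRed_genBase]
      exact fun h0 => hd (qExpand_injective (R := X.k) (N := q) (h0.trans (map_zero _).symm))
    · rw [genRed_genBase, genRed_genBase, e]

include hκ hb hc' in
/-- The residue of a function of the chart is, locally, a residue from `genRing`. -/
theorem exists_local_eq (z : G.openChart) :
    ∃ u g : G.genRing b, P.genVal b u ≠ 0 ∧
      G.oRed κ₀ (G.genIncl b u * z) = G.genRed κ₀ b g := by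
  set Y := G.unif b c'
  set r := G.oRed κ₀ z with hr
  have hrK : r ∈ G.resField := by rw [hr, G.oRed_apply]; exact G.red_mem_resField κ₀ z.2
  obtain ⟨g₀, d, hd, hgd⟩ := exists_frac_of_resField hb hrK
  obtain ⟨n, s, u, hs, hu, hsd⟩ := exists_unif_pow P hκ hb c' hc' hd
  have hYR : G.genRed κ₀ b Y ≠ 0 := genRed_unif_ne_zero hb c'
  suffices key : ∀ (n : ℕ) (A B : G.genRing b), P.genVal b A ≠ 0 →
      r * G.genRed κ₀ b (Y ^ n * A) = G.genRed κ₀ b B →
      ∃ u g : G.genRing b, P.genVal b u ≠ 0 ∧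
        G.oRed κ₀ (G.genIncl b u * z) = G.genRed κ₀ b g by
    refine key n u (s * g₀) hu ?_
    rw [← hsd]
    simp only [map_mul] at hgd ⊢
    linear_combination (G.genRed κ₀ b s) * hgd
  intro n
  induction n with
  | zero =>
    intro A B hA h
    refine ⟨A, B, hA, ?_⟩
    rw [pow_zero, one_mul, mul_comm] at h
    rw [map_mul]
    exact h
  | succ n ih =>
    intro A B hA h
    by_cases hB : P.genVal b B = 0
    · obtain ⟨t, B', ht, hB'⟩ := exists_unif_dvd P hκ hb c' hc' hB
      refine ih (A * t) B' (by rw [map_mul]; exact mul_ne_zero hA ht) (mul_left_cancel₀ hYR ?_)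
      simp only [map_mul, map_pow, pow_succ] at h hB' ⊢
      linear_combination (G.genRed κ₀ b t) * h + hB'
    · exfalso
      obtain ⟨Q, hQ, hQz⟩ := z.2
      have hcoef : ∀ a ∈ Algebra.adjoin X.O ({G.baseHom G.h, G.baseHom G.Dinv} : Set G.splitField),
          a ∈ G.genRing b := fun a ha => Algebra.adjoin_le (by
            rintro x (rfl | hx)
            · exact (G.genBase b G.h).2
            · rw [Set.mem_singleton_iff.mp hx]; exact (G.genBase b G.Dinv).2) ha
      let ι : Algebra.adjoin X.O ({G.baseHom G.h, G.baseHom G.Dinv} : Set G.splitField) →+*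
          G.genRing b :=
        ((Algebra.adjoin X.O
            ({G.baseHom G.h, G.baseHom G.Dinv} : Set G.splitField)).val.toRingHom).codRestrict
          (G.genRing b) fun a => hcoef a a.2
      set Q' := Q.map ι with hQ'
      have hroot : eval₂ (G.genRed κ₀ b) r Q' = 0 := by
        have h0 : eval₂ ((G.genIncl b).comp ι) z Q = 0 := Subtype.ext (by
          show G.openChart.subtype (eval₂ ((G.genIncl b).comp ι) z Q) = 0
          rw [hom_eval₂]
          exact hQz)
        rw [hQ', eval₂_map, show (G.genRed κ₀ b).comp ι = (G.oRed κ₀).comp ((G.genIncl b).comp ι)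
          from rfl, hr, ← hom_eval₂, h0, map_zero]
      set Yv := Y ^ (n + 1) * A
      have h1 : G.genRed κ₀ b (eval B (Q'.scaleRoots Yv)) = 0 := by
        rw [← eval₂_at_apply, ← h, mul_comm r, scaleRoots_eval₂_mul, hroot, mul_zero]
      have h2 := P.genVal_eq_zero hκ h1
      have hYv : P.genVal b Yv = 0 := by
        rw [map_mul, map_pow, P.genVal_unif c' hc', zero_pow (Nat.succ_ne_zero n), zero_mul]
      rw [← eval₂_at_apply, ← eval_map, map_scaleRoots _ _ _ (by
          rw [(hQ.map ι).leadingCoeff, map_one]; exact one_ne_zero), hYv, scaleRoots_zero,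
        ((hQ.map ι).map _).leadingCoeff, one_smul, eval_pow, eval_X] at h2
      exact pow_ne_zero _ hB h2

include hκ hb hc' in
/-- **The local residue ring.** -/
theorem exists_mul_unif {z : G.openChart} (hz : P.φ z = 0) :
    ∃ s g : G.openChart, P.φ s ≠ 0 ∧
      G.oRed κ₀ (s * z) = G.oRed κ₀ (G.genIncl b (G.unif b c') * g) := by
  obtain ⟨u, g, hu, h⟩ := exists_local_eq P hκ hb c' hc' z
  have hg : P.genVal b g = 0 := by
    have h1 : P.φ (G.genIncl b u * z) = P.φ (G.genIncl b g) := P.eq_of_red hκ h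
    rw [map_mul, hz, mul_zero] at h1
    exact h1.symm
  obtain ⟨t, g', ht, h'⟩ := exists_unif_dvd P hκ hb c' hc' hg
  refine ⟨G.genIncl b t * G.genIncl b u, G.genIncl b g',
    by rw [map_mul]; exact mul_ne_zero ht hu, ?_⟩
  rw [mul_assoc, map_mul, h, ← map_mul]
  show G.oRed κ₀ (G.genIncl b t) * G.oRed κ₀ (G.genIncl b g) = _
  rw [← map_mul, ← map_mul]
  exact h'.trans (congrArg (G.oRed κ₀) (map_mul (G.genIncl b) _ _))

end Model

end FLTAgent.CarayolSquare
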