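import Fermat.Agent.CarayolSquare.Ordinary.Orders
import Fermat.Agent.CarayolSquare.Geometry.Single
import Mathlib.RingTheory.Trace.Basic
import Mathlib.FieldTheory.KummerPolynomial
import Mathlib.RingTheory.AlgebraTower
import Fermat.Agent.FFBasic.AdjoinFrac

/-!
# The residue field at a component

The residues at a component of functions of the open chart lie in the field `resField` generated
over the residues of base functions by the reduction of `h`: `red_mem_resField`.
-/

set_option autoImplicit false

noncomputable section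

open ModularCurve Polynomial

namespace FLTAgent.CarayolSquare

attribute [local instance high] RingHom.instRingHomClass RingHomClass.toAddMonoidHomClass
  AddMonoidHomClass.toAddHomClass AlgHomClass.toRingHomClass RingHomClass.toMonoidHomClass
  MonoidHomClass.toMulHomClass

theorem trace_eq_sum_of_bijective {K L E : Type*} [Field K] [Field L] [Field E] [CharZero K]
    [IsAlgClosed E] [Algebra K L] [Algebra K E] [FiniteDimensional K L] {ι : Type*} [Fintype ι]
    {σ : ι → (L →ₐ[K] E)} (hσ : Function.Bijective σ) (x : L) :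
    algebraMap K E (Algebra.trace K L x) = ∑ i, σ i x := by
  rw [trace_eq_sum_embeddings E (x := x)]
  exact (Fintype.sum_bijective σ hσ _ _ fun _ => rfl).symm

variable {q : ℕ} [NeZero q] [Fact q.Prime]

namespace Model

variable {X : Ctx q} {M₁ : ℕ} [NeZero M₁] (G : Model X M₁)

theorem red_sum {κ : Option Bool} {ι : Type*} (s : Finset ι) {z : ι → G.splitField}
    (h : ∀ i ∈ s, z i ∈ G.V κ) : G.red κ (∑ i ∈ s, z i) = ∑ i ∈ s, G.red κ (z i) := by
  classical
  induction s using Finset.induction_on with
  | empty => simpa using G.red_zero κ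
  | insert a s ha ih =>
    rw [Finset.sum_insert ha, Finset.sum_insert ha,
      G.red_add (h a (Finset.mem_insert_self a s))
        (sum_mem fun i hi => h i (Finset.mem_insert_of_mem hi)),
      ih fun i hi => h i (Finset.mem_insert_of_mem hi)]

omit [Fact (Nat.Prime q)] in
/-- The trace to a line field, read along any pair. -/
theorem emb_trace_LF (b : Bool) (P₀ : Pair q) (z : G.splitField) :
    G.emb G.one P₀ (Algebra.trace (G.LF b) G.splitField z : G.splitField) =
      ∑ Q : {Q : Pair q // Q.line b = P₀.line b}, G.emb G.one Q.1 z := by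
  classical
  have : Algebra.IsAlgebraic (G.LF b) G.splitField := Algebra.IsAlgebraic.of_finite _ _
  have : Algebra.IsSeparable (G.LF b) G.splitField :=
    Algebra.IsAlgebraic.isSeparable_of_perfectField
  let e : G.LF b →+* BigF :=
    ((algebraMap Ser BigF).comp (G.emb G.one P₀).toRingHom).comp (algebraMap (G.LF b) G.splitField)
  let : Algebra (G.LF b) BigF := e.toAlgebra
  let σ : {Q : Pair q // Q.line b = P₀.line b} → (G.splitField →ₐ[G.LF b] BigF) := fun Q =>
    { (algebraMap Ser BigF).comp (G.emb G.one Q.1).toRingHom with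
      commutes' := fun w => by
        show algebraMap Ser BigF (G.emb G.one Q.1 (w : G.splitField)) = e w
        rw [G.emb_LF_eq G.one b Q.2 w.2]
        rfl }
  have hσ : Function.Injective σ := fun Q Q' h =>
    Subtype.ext (G.line_injective G.one rfl fun b' => (algebraMap Ser BigF).injective
      (DFunLike.congr_fun h (G.gen b' (.pull G.h))))
  refine (algebraMap Ser BigF).injective ?_
  rw [map_sum]
  exact trace_eq_sum_of_bijective
    (bijective_of_finrank_le hσ (by rw [card_fibre]; exact G.finrank_LF_le b)) z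

/-- The residue of a trace to a line field. -/
theorem red_trace_LF (b : Bool) {z : G.splitField} (hz : ∀ κ, z ∈ G.V κ) :
    (Algebra.trace (G.LF b) G.splitField z : G.splitField) ∈ G.V none ∧
      G.red none (Algebra.trace (G.LF b) G.splitField z : G.splitField) =
        G.red (some !b) z - G.red none z := by
  classical
  choose hm he using fun Q : {Q : Pair q // Q.line b = (kindPair (q := q) none).line b} =>
    G.emb_red Q.1 (hz (kindOf Q.1))
  have hsum : G.emb G.one (kindPair none) (Algebra.trace (G.LF b) G.splitField z : G.splitField) =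
      ((∑ Q, (⟨_, hm Q⟩ : X.gaussRing) : X.gaussRing) : Ser) := by
    rw [G.emb_trace_LF b (kindPair none) z]
    exact (map_sum X.gaussRing.subtype (fun Q => (⟨_, hm Q⟩ : X.gaussRing)) Finset.univ).symm
  obtain ⟨hV, hr⟩ := G.red_of_emb (κ := none) _ hsum
  refine ⟨hV, ?_⟩
  rw [hr, map_sum, Finset.sum_congr rfl fun Q _ => he Q]
  have hne : (kindPair (q := q) none).line b ≠ none := by cases b <;> simp [kindPair, Pair.line]
  have h := prod_fibre (R := Multiplicative (LaurentSeries X.k)) b
    ((kindPair (q := q) none).line b) (fun κ => Multiplicative.ofAdd (G.red κ z))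
  rw [if_neg hne] at h
  have h2 : ∑ Q : {Q : Pair q // Q.line b = (kindPair (q := q) none).line b},
      G.red (kindOf Q.1) z = G.red (some !b) z + (q - 1) • G.red none z := by
    have h' := congrArg Multiplicative.toAdd h
    rw [toAdd_prod, toAdd_mul, toAdd_pow] at h'
    simpa only [toAdd_ofAdd] using h'
  rw [h2, nsmul_eq_mul, Nat.cast_sub (NeZero.one_le : 1 ≤ q)]
  have := X.charP_serk
  rw [CharP.cast_eq_zero, Nat.cast_one]
  ring

omit [Fact (Nat.Prime q)] [NeZero q] in
theorem exists_div_baseHom {β : G.splitField} (hβ : β ∈ G.B₀) :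
    ∃ a d : G.C, G.baseHom d ≠ 0 ∧ β * G.baseHom d = G.baseHom a := by
  refine FFBasic.exists_mul_eq_of_mem_adjoin (G.baseHom : G.C →+* G.splitField) (fun c => ?_)
    (fun x hx => ?_) hβ
  · obtain ⟨a, b, hb, h⟩ := X.exists_div_O c
    refine ⟨algebraMap X.O G.C a, algebraMap X.O G.C b, ?_, ?_⟩
    · rw [RingHom.coe_coe, AlgHom.commutes]
      exact (_root_.map_ne_zero (algebraMap X.K G.splitField)).mpr fun h0 => hb (Subtype.ext h0)
    · rw [RingHom.coe_coe, AlgHom.commutes, AlgHom.commutes]
      show algebraMap X.K G.splitField c * algebraMap X.K G.splitField (b : X.K) =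
        algebraMap X.K G.splitField (a : X.K)
      rw [← map_mul, h]
  · obtain ⟨c, rfl⟩ := hx
    exact ⟨c, 1, by rw [map_one]; exact one_ne_zero, by rw [map_one, mul_one]; rfl⟩

/-- A base function integral at the Gauss valuation is a fraction with a unit denominator. -/
theorem exists_unit_div_baseHom {β : G.splitField} (hβ : β ∈ G.B₀) (hV : β ∈ G.V none) :
    ∃ a d : G.C, G.redC d ≠ 0 ∧ β * G.baseHom d = G.baseHom a := by
  obtain ⟨a, d, hd, h⟩ := G.exists_div_baseHom hβ
  obtain ⟨i, d', rfl, hd'⟩ := G.exists_q_pow_mul (d := d) fun h0 => hd (by rw [h0, map_zero])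
  refine Exists.imp (fun a => fun h => ⟨d', mt (G.redC_eq_zero_iff d').mp hd', h⟩) ?_
  clear hd
  induction i generalizing a with
  | zero => exact ⟨a, by simpa using h⟩
  | succ i ih =>
    have h0 : G.redC a = 0 := by
      refine qExpand_injective (R := X.k) (N := q) ?_
      rw [← G.red_baseHom_qExpand none, ← h, G.red_mul hV (G.baseHom_mem_V _ _), map_zero,
        pow_succ', mul_assoc, map_mul, G.red_mul (G.baseHom_mem_V _ _) (G.baseHom_mem_V _ _),
        map_natCast, G.red_natCast_q, zero_mul, mul_zero]
    obtain ⟨a', rfl⟩ := (G.redC_eq_zero_iff_dvd a).mp h0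
    refine ih a' (mul_left_cancel₀ G.q_ne_zero_split ?_)
    rw [← map_natCast G.baseHom q, ← map_mul G.baseHom (q : G.C) a', ← h, pow_succ', mul_assoc,
      map_mul G.baseHom (q : G.C) ((q : G.C) ^ i * d')]
    ring

theorem InBase.add {G : Model X M₁} {r s : LaurentSeries X.k} (h : G.InBase r) (h' : G.InBase s) :
    G.InBase (r + s) := by
  obtain ⟨β, hβ, hβV, rfl⟩ := h
  obtain ⟨γ, hγ, hγV, rfl⟩ := h'
  exact ⟨β + γ, add_mem hβ hγ, add_mem hβV hγV, G.red_add hβV hγV⟩

theorem InBase.exists_eq_qExpand {G : Model X M₁} {r : LaurentSeries X.k} (h : G.InBase r) :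
    ∃ a d : G.C, G.redC d ≠ 0 ∧ r * qExpand X.k q (G.redC d) = qExpand X.k q (G.redC a) := by
  obtain ⟨β, hβ, hβV, rfl⟩ := h
  obtain ⟨a, d, hd, e⟩ := G.exists_unit_div_baseHom hβ hβV
  refine ⟨a, d, hd, ?_⟩
  rw [← G.red_baseHom_qExpand none, ← G.red_baseHom_qExpand none,
      ← G.red_mul hβV (G.baseHom_mem_V _ _), e]

/-- The field of residues of base functions. -/
def baseRes : Subfield (LaurentSeries X.k) where
  carrier := {r | G.InBase r}
  mul_mem' := fun h h' => h.mul h'
  one_mem' := ⟨1, one_mem _, one_mem _, G.red_one none⟩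
  add_mem' := fun h h' => h.add h'
  zero_mem' := ⟨0, zero_mem _, zero_mem _, G.red_zero none⟩
  neg_mem' := fun {r} h => by
    have := (G.inBase_const (-1)).mul h
    rwa [map_neg, map_one, neg_one_mul] at this
  inv_mem' := fun r h => h.inv

theorem qExpand_redC_mem_baseRes (c : G.C) : qExpand X.k q (G.redC c) ∈ G.baseRes :=
  ⟨G.baseHom c, IntermediateField.subset_adjoin _ _ ⟨c, rfl⟩, G.baseHom_mem_V none c,
    G.red_baseHom_qExpand none c⟩

theorem hbar_pow_mem_baseRes : G.hbar ^ q ∈ G.baseRes := by
  rw [G.hbar_pow]; exact G.qExpand_redC_mem_baseRes G.h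

theorem hbar_not_mem_baseRes : G.hbar ∉ G.baseRes := by
  intro h
  obtain ⟨a, d, hd, e⟩ := InBase.exists_eq_qExpand h
  have hd' : qExpand X.k q (G.redC d) ≠ 0 := fun h0 =>
    hd (qExpand_injective (R := X.k) (N := q) (h0.trans (map_zero _).symm))
  have h1 : G.hbar = qExpand X.k q (G.redC a / G.redC d) := by
    rw [map_div₀, eq_div_iff hd', e]
  obtain ⟨n, -, hqn, -, hlead⟩ := G.h_order
  have h2 : G.hbar.coeff (-(n : ℤ)) = 0 := by
    rw [h1]; exact qExpand_coeff_of_not_dvd q _ (by rw [dvd_neg]; exact_mod_cast hqn)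
  rw [hbar, redC_apply, Ctx.coeff_redS_eq_zero] at h2
  exact h2.ne hlead

/-- The field of residues of one line. -/
def resField : Subfield (LaurentSeries X.k) :=
  Subfield.closure (Set.insert G.hbar (G.baseRes : Set (LaurentSeries X.k)))

theorem baseRes_le_resField : G.baseRes ≤ G.resField :=
  fun _ hx => Subfield.subset_closure (Set.mem_insert_of_mem _ hx)

theorem hbar_mem_resField : G.hbar ∈ G.resField :=
  Subfield.subset_closure (Set.mem_insert _ _)

theorem natDegree_minpoly_hbar :
    IsIntegral G.baseRes G.hbar ∧ (minpoly G.baseRes G.hbar).natDegree = q := by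
  have := X.charP_serk
  have : ExpChar (LaurentSeries X.k) q := ExpChar.prime X.prime
  set p : G.baseRes[X] := Polynomial.X ^ q - Polynomial.C ⟨_, G.hbar_pow_mem_baseRes⟩
  have hp : p.Monic := monic_X_pow_sub_C _ X.prime.ne_zero
  have h0 : aeval G.hbar p = 0 := by
    simp only [p, map_sub, map_pow, aeval_X, aeval_C]
    exact sub_self _
  refine ⟨⟨p, hp, h0⟩, ?_⟩
  have hirr : Irreducible p := X_pow_sub_C_irreducible_of_prime X.prime fun b hb => by
    have h1 : (b : LaurentSeries X.k) ^ q = G.hbar ^ q := congrArg Subtype.val hb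
    have h2 : (b : LaurentSeries X.k) = G.hbar := frobenius_inj (LaurentSeries X.k) q h1
    exact G.hbar_not_mem_baseRes (h2 ▸ b.2)
  rw [← minpoly.eq_of_irreducible_of_monic hirr h0 hp]
  exact natDegree_X_pow_sub_C

omit [Fact (Nat.Prime q)] in
theorem finrank_LF_ge (b : Bool) : q ≤ Module.finrank (G.LF b) G.splitField := by
  have : Algebra.IsAlgebraic (G.LF b) G.splitField := Algebra.IsAlgebraic.of_finite _ _
  have : Algebra.IsSeparable (G.LF b) G.splitField :=
    Algebra.IsAlgebraic.isSeparable_of_perfectField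
  have h := card_le_finrank (G.embLF_injective b)
  rwa [card_fibre] at h

/-- The residues of a line field at the component with that line affine. -/
theorem red_LF_mem_resField (b : Bool) {f : G.splitField} (hf : f ∈ G.LF b) (hV : f ∈ G.V none) :
    G.red none f ∈ G.resField := by
  classical
  obtain ⟨hint, hdeg⟩ := G.natDegree_minpoly_hbar
  let E₁ : IntermediateField G.baseRes (LaurentSeries X.k) :=
    IntermediateField.adjoin G.baseRes {G.hbar}
  set r := G.red none f with hr
  by_contra hnot
  have hE : r ∉ E₁ := fun h => hnot (by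
    clear hnot
    generalize r = x at h
    induction h using IntermediateField.adjoin_induction with
    | mem y hy => rw [Set.mem_singleton_iff.mp hy]; exact G.hbar_mem_resField
    | algebraMap c => exact G.baseRes_le_resField c.2
    | add x y _ _ hx hy => exact add_mem hx hy
    | inv x _ hx => exact inv_mem hx
    | mul x y _ _ hx hy => exact mul_mem hx hy)
  let pb := IntermediateField.adjoin.powerBasis hint
  have hdim : pb.dim = q := hdeg
  have hind2 : LinearIndependent E₁ ![(1 : LaurentSeries X.k), r] := by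
    rw [LinearIndependent.pair_iff]
    intro s t hst
    rw [IntermediateField.smul_def, IntermediateField.smul_def, smul_eq_mul, smul_eq_mul,
      mul_one] at hst
    have ht : t = 0 := by
      by_contra ht
      have ht0 : (t : LaurentSeries X.k) ≠ 0 := fun h => ht (Subtype.ext h)
      refine hE ?_
      rw [show r = -(s : LaurentSeries X.k) / (t : LaurentSeries X.k) by
        rw [eq_div_iff ht0]; linear_combination hst]
      exact div_mem (neg_mem s.2) t.2
    subst ht
    simp only [ZeroMemClass.coe_zero, zero_mul, add_zero] at hst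
    exact ⟨Subtype.ext hst, rfl⟩
  let v : Fin pb.dim × Fin 2 → LaurentSeries X.k := fun p =>
    G.hbar ^ (p.1 : ℕ) * r ^ (p.2 : ℕ)
  have hv : LinearIndependent G.baseRes v := by
    have h := linearIndependent_smul pb.basis.linearIndependent hind2
    have e : v = fun p => pb.basis p.1 • (![(1 : LaurentSeries X.k), r] p.2) := by
      funext p
      obtain ⟨i, j⟩ := p
      simp only [v]
      rw [pb.basis_eq_pow, IntermediateField.smul_def, smul_eq_mul, SubmonoidClass.coe_pow,
        show ((pb.gen : E₁) : LaurentSeries X.k) = G.hbar from rfl]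
      fin_cases j <;> simp
    rw [e]
    exact h
  -- lifts
  let w : Fin pb.dim × Fin 2 → G.splitField := fun p =>
    G.pullHom b G.h ^ (p.1 : ℕ) * f ^ (p.2 : ℕ)
  have hpV : G.pullHom b G.h ∈ G.V none := G.openChart_le_V none (G.pullHom_mem_openChart b G.h)
  have hwV : ∀ p, w p ∈ G.V none := fun p => mul_mem (pow_mem hpV _) (pow_mem hV _)
  have hwr : ∀ p, G.red none (w p) = v p := fun p => by
    rw [G.red_mul (pow_mem hpV _) (pow_mem hV _), G.red_pow hpV, G.red_pow hV,
      G.red_pullHom (by simp)]
    rfl
  let E : IntermediateField G.B₀ G.splitField :=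
    IntermediateField.extendScalars (G.B₀_le_LF b)
  let w' : Fin pb.dim × Fin 2 → E := fun p =>
    ⟨w p, mul_mem (pow_mem (G.gen_mem_LF b _) _) (pow_mem hf _)⟩
  have hw : LinearIndependent G.B₀ w' := by
    rw [Fintype.linearIndependent_iff]
    intro g hg
    by_contra! hne
    obtain ⟨p₁, hp₁⟩ := hne
    obtain ⟨p₀, -, hmax⟩ := Finset.exists_max_image Finset.univ
      (fun p => (G.V none).valuation ((g p : G.splitField))) ⟨p₁, Finset.mem_univ _⟩
    have hg0 : ((g p₀ : G.splitField)) ≠ 0 := fun h => hp₁ (Subtype.ext (by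
      have := hmax p₁ (Finset.mem_univ _)
      rw [h, map_zero] at this
      exact (map_eq_zero (G.V none).valuation).mp (le_antisymm this zero_le)))
    set g' : Fin pb.dim × Fin 2 → G.splitField := fun p => (g p : G.splitField) / g p₀
    have hgV : ∀ p, g' p ∈ G.V none := fun p => by
      rw [← (G.V none).valuation_le_one_iff, map_div₀]
      exact (div_le_one₀ ((G.V none).valuation.pos_iff.mpr hg0)).mpr (hmax p (Finset.mem_univ _))
    have hsum : ∑ p, g' p * w p = 0 := by
      have h1 := congrArg (fun e : E => (e : G.splitField) / g p₀) hg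
      simp only [ZeroMemClass.coe_zero, zero_div] at h1
      rw [← h1, show ((∑ p, g p • w' p : E) : G.splitField) = ∑ p, (g p : G.splitField) * w p from
        map_sum E.val _ _, Finset.sum_div]
      exact Finset.sum_congr rfl fun p _ => by rw [div_mul_eq_mul_div]
    have h2 := congrArg (G.red none) hsum
    rw [G.red_sum _ fun p _ => mul_mem (hgV p) (hwV p), G.red_zero] at h2
    have hc : ∀ p, G.red none (g' p) ∈ G.baseRes := fun p =>
      ⟨g' p, div_mem (g p).2 (g p₀).2, hgV p, rfl⟩
    have h3 := Fintype.linearIndependent_iff.mp hv (fun p => ⟨_, hc p⟩) (by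
      rw [← h2]
      exact Finset.sum_congr rfl fun p _ => by rw [G.red_mul (hgV p) (hwV p), hwr]; rfl) p₀
    have h4 := congrArg Subtype.val h3
    simp only [g', div_self hg0, G.red_one, ZeroMemClass.coe_zero, one_ne_zero] at h4
  have h5 := hw.fintype_card_le_finrank
  rw [Fintype.card_prod, Fintype.card_fin, Fintype.card_fin, hdim] at h5
  have : Module.Free G.B₀ E := Module.Free.of_divisionRing _ _
  have : Module.Free E G.splitField := Module.Free.of_divisionRing _ _
  have h6 := Module.finrank_mul_finrank G.B₀ E G.splitField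
  rw [G.finrank_B₀, card_pair] at h6
  have h7 : q ≤ Module.finrank E G.splitField := G.finrank_LF_ge b
  have h8 : Module.finrank G.B₀ E * q ≤ (q + 1) * q := (Nat.mul_le_mul_left _ h7).trans h6.le
  have h9 := Nat.le_of_mul_le_mul_right h8 X.prime.pos
  have := X.prime.two_le
  omega

/-- The residue at a component of a function of the open chart. -/
theorem red_mem_resField (κ₀ : Option Bool) {z : G.splitField} (hz : z ∈ G.openChart) :
    G.red κ₀ z ∈ G.resField := by
  obtain ⟨b, hb⟩ : ∃ b, κ₀ = none ∨ κ₀ = some !b := by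
    rcases κ₀ with _ | c
    · exact ⟨true, Or.inl rfl⟩
    · exact ⟨!c, Or.inr (by rw [Bool.not_not])⟩
  set u := z * G.sepFun κ₀ with hu
  have hsV : ∀ κ, G.sepFun κ₀ ∈ G.V κ := fun κ => G.openChart_le_V κ (G.sepFun_mem_openChart κ₀)
  have huV : ∀ κ, u ∈ G.V κ := fun κ => mul_mem (G.openChart_le_V κ hz) (hsV κ)
  have hur : ∀ κ, G.red κ u = if κ = κ₀ then G.red κ z * G.hasseRes else 0 := fun κ => by
    rw [hu, G.red_mul (G.openChart_le_V κ hz) (hsV κ), G.red_sepFun]
    split_ifs <;> simp
  obtain ⟨hTV, hT⟩ := G.red_trace_LF b huV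
  have hTmem :=
      G.red_LF_mem_resField b (SetLike.coe_mem (Algebra.trace (G.LF b) G.splitField u)) hTV
  have h1 : G.red κ₀ z * G.hasseRes ∈ G.resField := by
    rcases hb with rfl | rfl
    · rw [hT, hur, hur, if_neg (by simp), if_pos rfl, zero_sub] at hTmem
      exact neg_mem_iff.mp hTmem
    · rw [hT, hur, hur, if_pos rfl, if_neg (by simp), sub_zero] at hTmem
      exact hTmem
  have h2 := div_mem h1 (G.baseRes_le_resField (G.qExpand_redC_mem_baseRes G.hasse))
  rwa [← hasseRes, mul_div_cancel_right₀ _ G.hasseRes_ne_zero] at h2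

end Model

end FLTAgent.CarayolSquare
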